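import Fermat.Agent.CFT.Idele.ClassFinite
import Fermat.Agent.CFT.Local.NormIndex
import Fermat.Agent.CFT.Local.Unramified

/-!
# Local unit subgroups with trivial cohomology

Almost all primes are unramified in `L`; at every prime some Galois stable subgroup of finite index
in the units has trivial cohomology for all subgroups, and at unramified primes the units do.
-/

set_option autoImplicit false

noncomputable section

namespace Fermat.Agent.CFT.Idele

open Fermat.Agent.Arith IntermediateField Fermat.Agent.CFT.Local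

variable (L : IntermediateField ℚ QBar) [FiniteDimensional ℚ L] [Normal ℚ L]

/-- Almost all primes are unramified in `L`. -/
theorem exists_finset_unramified :
    ∃ T : Finset Nat.Primes, ∀ q ∉ T, inertia (E L q) = ⊥ := by
  classical
  have h : ∀ τ : L ≃ₐ[ℚ] L, ∃ T : Finset Nat.Primes, τ ≠ 1 → ∃ x : L,
      IsIntegral ℤ (x : QBar) ∧ ∀ q ∉ T, absAt q (1 : L ≃ₐ[ℚ] L) (τ x - x) = 1 := by
    intro τ
    by_cases hτ : τ = 1
    · exact ⟨∅, fun h => absurd hτ h⟩
    obtain ⟨x, hx⟩ : ∃ x : L, τ x ≠ x := by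
      by_contra hne
      push Not at hne
      exact hτ (AlgEquiv.ext hne)
    obtain ⟨d, hd, hdx⟩ := IsAlgebraic.exists_integral_multiple (R := ℤ)
      ((IsFractionRing.isAlgebraic_iff ℤ ℚ QBar).2
        (Algebra.IsAlgebraic.isAlgebraic (x : QBar)))
    have hne : τ ((d : L) * x) - (d : L) * x ≠ 0 := by
      rw [map_mul, map_intCast, ← mul_sub]
      exact mul_ne_zero (Int.cast_ne_zero.2 hd) (sub_ne_zero.2 hx)
    obtain ⟨T, hT⟩ := exists_finset_absAt _ hne
    refine ⟨T, fun _ => ⟨(d : L) * x, ?_, fun q hq => hT q hq 1⟩⟩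
    rw [Algebra.smul_def] at hdx
    push_cast
    exact hdx
  choose T hT using h
  refine ⟨Finset.univ.biUnion T, fun q hq => eq_bot_iff.2 fun σ hσ => ?_⟩
  rw [Subgroup.mem_bot]
  refine toGlobal_injective _ L ?_
  rw [map_one]
  by_contra hne
  obtain ⟨x, hx, hxT⟩ := hT _ hne
  have h1 := hxT q fun hm => hq (Finset.mem_biUnion.2 ⟨_, Finset.mem_univ _, hm⟩)
  have hle : ‖localEmb (q : ℕ) L x‖ ≤ 1 := by rw [norm_localEmb]; exact norm_emb_le_one hx q
  have h2 := mem_inertia.1 hσ _ hle
  rw [← localEmb_toGlobal, ← map_sub] at h2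
  exact h2.ne h1

/-- A Galois stable subgroup of finite index in the units of `E_q` with trivial cohomology, equal
to all units when `q` is unramified. -/
theorem exists_trivial_units (q : Nat.Primes) :
    ∃ D : Subgroup (E L q)ˣ, D ≤ unitGroup (E L q) ∧ D.relIndex (unitGroup (E L q)) ≠ 0 ∧
      (∀ t : E L q ≃ₐ[ℚ_[(q : ℕ)]] E L q, ∀ u ∈ D, t • u ∈ D) ∧
      (∀ (S : Subgroup (E L q ≃ₐ[ℚ_[(q : ℕ)]] E L q)) [Fintype S], NormOK S D) ∧
      (inertia (E L q) = ⊥ → D = unitGroup (E L q)) := by
  classical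
  by_cases hI : inertia (E L q) = ⊥
  · refine ⟨unitGroup (E L q), le_rfl, by simp [Subgroup.relIndex_self],
      fun t u hu => (smul_mem_unitGroup_iff t u).2 hu, fun S _ => ?_, fun _ => rfl⟩
    have hS : S ⊓ inertia (E L q) = ⊥ := by rw [hI, inf_bot_eq]
    have := isCyclic_of_inf_inertia_eq_bot S hS
    refine ⟨fun x hx hfix => ?_, fun x hx hN => ?_⟩
    · have h0 : ordZ (E L q) x = 0 := by rw [ordZ, (ord_eq_one_iff _).2 hx, toAdd_one]
      obtain ⟨y, hy⟩ := (exists_normHom_eq_iff S hS (x := x) hfix).2 (h0 ▸ dvd_zero _)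
      refine ⟨y, ?_, hy⟩
      rw [← ord_eq_one_iff]
      apply Multiplicative.toAdd.injective
      have := ordZ_normHom S y
      rw [hy, h0] at this
      exact (mul_eq_zero.mp this.symm).resolve_left (Nat.cast_ne_zero.mpr Fintype.card_ne_zero)
    · obtain ⟨σ, hσ⟩ := exists_zpowers_eq S
      obtain ⟨y, hy⟩ := exists_augOne_eq hσ (x := x) hN
      obtain ⟨z, hz, hu⟩ := exists_fixed_div_mem_unitGroup S hS y
      set s₀ : S := ⟨σ, hσ ▸ Subgroup.mem_zpowers σ⟩
      refine ⟨fun h => if h = s₀ then y / z else 1,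
        fun h => by dsimp only; split_ifs <;> [exact hu; exact one_mem _], ?_⟩
      rw [Finset.prod_eq_single s₀ (fun h _ hh => by simp [if_neg hh])
        (fun h => absurd (Finset.mem_univ _) h)]
      simp only [if_true]
      show σ • (y / z) / (y / z) = x
      rw [smul_div', show σ • z = z from hz s₀, div_div_div_cancel_right, ← hy]
      rfl
  · obtain ⟨Λ⟩ := exists_normalLattice (E := E L q)
    refine ⟨deepUnits Λ.good 0, deepUnits_le_unitGroup _, relIndex_deepUnits_ne_zero _ 0,
      fun t u hu => Λ.smul_mem_deepUnits hu, fun S _ => ⟨fun x hx hfix => ?_, fun x hx hN => ?_⟩,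
      fun h => absurd h hI⟩
    · exact Λ.exists_normHom_eq S hx hfix
    · exact Λ.exists_augHom_eq S hx hN

end Fermat.Agent.CFT.Idele
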