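import Fermat.Agent.CFT.Idele.Semilocal

/-!
# Idele classes

`J L` and `C L = J L / Lˣ` as modules over `Gal(L/ℚ)`, and the map `loc q` from the completion.
-/

set_option autoImplicit false

noncomputable section

namespace Fermat.Agent.CFT.Idele

open Fermat.Agent.Arith Fermat.Agent.CFT.Local

variable (L : IntermediateField ℚ QBar) [FiniteDimensional ℚ L] [Normal ℚ L]

/-- The finite ideles of `L`. -/
abbrev J : Type := Additive (idl L)

/-- The idele classes, multiplicatively. -/
abbrev ClassGrp : Type := idl L ⧸ (prinL L).range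

/-- The idele classes of `L`. -/
abbrev C : Type := Additive (ClassGrp L)

omit [FiniteDimensional ℚ L] in
theorem smul_mem_prinL (σ : L ≃ₐ[ℚ] L) {f : idl L} (hf : f ∈ (prinL L).range) :
    σ • f ∈ (prinL L).range := by
  obtain ⟨x, rfl⟩ := hf
  exact ⟨σ • x, (smul_prinL σ x).symm⟩

/-- The action of an automorphism on idele classes. -/
def classMap (σ : L ≃ₐ[ℚ] L) : ClassGrp L →* ClassGrp L :=
  QuotientGroup.map _ _ (MulDistribMulAction.toMonoidHom (idl L) σ) fun _ hf =>
    smul_mem_prinL L σ hf

/-- The Galois action on idele classes. -/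
instance classAction : MulDistribMulAction (L ≃ₐ[ℚ] L) (ClassGrp L) where
  smul σ := classMap L σ
  one_smul x := by
    induction x using QuotientGroup.induction_on with
    | H f => exact congrArg QuotientGroup.mk (one_smul _ f)
  mul_smul σ τ x := by
    induction x using QuotientGroup.induction_on with
    | H f => exact congrArg QuotientGroup.mk (mul_smul σ τ f)
  smul_mul σ x y := map_mul (classMap L σ) x y
  smul_one σ := map_one (classMap L σ)

omit [FiniteDimensional ℚ L] in
theorem smul_mk (σ : L ≃ₐ[ℚ] L) (f : idl L) :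
    σ • (QuotientGroup.mk f : ClassGrp L) = QuotientGroup.mk (σ • f) := rfl

/-- The Galois action on `J L`. -/
instance jAction : DistribMulAction (L ≃ₐ[ℚ] L) (J L) where
  smul σ a := Additive.ofMul (σ • a.toMul)
  one_smul a := congrArg Additive.ofMul (one_smul _ a.toMul)
  mul_smul σ τ a := congrArg Additive.ofMul (mul_smul σ τ a.toMul)
  smul_zero σ := congrArg Additive.ofMul (smul_one σ)
  smul_add σ a b := congrArg Additive.ofMul (smul_mul' σ a.toMul b.toMul)

/-- The Galois action on `C L`. -/
instance cAction : DistribMulAction (L ≃ₐ[ℚ] L) (C L) where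
  smul σ a := Additive.ofMul (σ • a.toMul)
  one_smul a := congrArg Additive.ofMul (one_smul _ a.toMul)
  mul_smul σ τ a := congrArg Additive.ofMul (mul_smul σ τ a.toMul)
  smul_zero σ := congrArg Additive.ofMul (smul_one σ : σ • (1 : ClassGrp L) = 1)
  smul_add σ a b := congrArg Additive.ofMul (smul_mul' σ a.toMul b.toMul)

/-- The projection `J L → C L`. -/
def proj : J L →+ C L :=
  AddMonoidHom.mk' (fun x => Additive.ofMul (QuotientGroup.mk x.toMul : ClassGrp L)) fun _ _ => rfl

omit [Normal ℚ ↥L] [FiniteDimensional ℚ L] in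
/-- The projection to idele classes is surjective. -/
theorem proj_surjective : Function.Surjective (proj L) := fun y => by
  obtain ⟨f, hf⟩ := QuotientGroup.mk_surjective (y.toMul : ClassGrp L)
  exact ⟨Additive.ofMul f, congrArg Additive.ofMul hf⟩

omit [Normal ℚ ↥L] [FiniteDimensional ℚ L] in
/-- The kernel of the projection consists of the principal ideles. -/
theorem proj_eq_zero_iff {x : J L} : proj L x = 0 ↔ ∃ a : Lˣ, prinL L a = x.toMul := by
  show (QuotientGroup.mk x.toMul : ClassGrp L) = 1 ↔ _
  rw [QuotientGroup.eq_one_iff]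
  rfl

omit [FiniteDimensional ℚ L] in
/-- The projection to classes is equivariant. -/
theorem proj_smul (σ : L ≃ₐ[ℚ] L) (x : J L) : proj L (σ • x) = σ • proj L x :=
  congrArg Additive.ofMul (smul_mk L σ x.toMul).symm

/-- The diagonal map `Lˣ → J L`. -/
def diag : Additive Lˣ →+ J L := MonoidHom.toAdditive (prinL L)

omit [Normal ℚ ↥L] [FiniteDimensional ℚ L] in
/-- Principal ideles have trivial class. -/
theorem proj_diag (a : Additive Lˣ) : proj L (diag L a) = 0 :=
  (proj_eq_zero_iff L).2 ⟨a.toMul, rfl⟩

omit [FiniteDimensional ℚ L] in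
/-- The diagonal map is equivariant. -/
theorem diag_smul (σ : L ≃ₐ[ℚ] L) (x : Additive Lˣ) : diag L (σ • x) = σ • diag L x :=
  congrArg Additive.ofMul (smul_prinL σ x.toMul).symm

/-- The map from the completion at the distinguished place over `q`. -/
def loc' (q : Nat.Primes) : Additive (E L q)ˣ →+ J L := MonoidHom.toAdditive (locIdl q)

/-- The map from the completion is equivariant for the decomposition group. -/
theorem loc'_smul (q : Nat.Primes) (t : E L q ≃ₐ[ℚ_[(q : ℕ)]] E L q) (y : Additive (E L q)ˣ) :
    loc' L q (t • y) = toGlobal (q : ℕ) L t • loc' L q y :=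
  congrArg Additive.ofMul (smul_locIdl q y.toMul t).symm

end Fermat.Agent.CFT.Idele
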