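import Fermat.Agent.CFT.Idele.Step
import Mathlib.GroupTheory.DoubleCoset

/-!
# Semilocal modules

For an injective `j : T →* G` and a `T`-module `U`, families `x : G → U` with `x (j t * g) = t x g`,
translated on the right by `G`.  If `D ≤ U` has trivial cohomology for every subgroup of `T`, then
families with values in `D` have trivial cohomology for every subgroup of `G`.
-/

set_option autoImplicit false

noncomputable section

namespace Fermat.Agent.CFT.Idele

variable {G T U : Type*} [Group G] [Group T] [CommGroup U] [MulDistribMulAction T U]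

/-- Equivariant families with values in `D`. -/
structure SemiIn (j : T →* G) (D : Subgroup U) (x : G → U) : Prop where
  equi : ∀ t g, x (j t * g) = t • x g
  mem : ∀ g, x g ∈ D

/-- The double coset relation. -/
def semiSetoid (j : T →* G) (H : Subgroup G) : Setoid G :=
  DoubleCoset.setoid (j.range : Set G) (H : Set G)

/-- The chosen representative of `j(T) g H`. -/
def semiRep (j : T →* G) (H : Subgroup G) (g : G) : G :=
  (Quotient.mk (semiSetoid j H) g).out

variable (j : T →* G) (H : Subgroup G)

/-- Every element factors through its double coset representative. -/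
theorem semiRep_spec (g : G) : ∃ t : T, ∃ h ∈ H, g = j t * semiRep j H g * h := by
  have : (semiSetoid j H) (semiRep j H g) g := Quotient.mk_out (s := semiSetoid j H) g
  obtain ⟨a, ⟨t, rfl⟩, b, hb, e⟩ := DoubleCoset.rel_iff.mp this
  exact ⟨t, b, hb, e⟩

/-- The representative depends only on the double coset. -/
theorem semiRep_mul (t : T) (g : G) {h : G} (hh : h ∈ H) :
    semiRep j H (j t * g * h) = semiRep j H g := by
  unfold semiRep
  congr 1
  refine (Quotient.sound (DoubleCoset.rel_iff.mpr ⟨j t, MonoidHom.mem_range.mpr ⟨t, rfl⟩, h, hh,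
    rfl⟩)).symm

theorem semiRep_idem (g : G) : semiRep j H (semiRep j H g) = semiRep j H g := by
  obtain ⟨t, h, hh, e⟩ := semiRep_spec j H g
  conv_rhs => rw [e, semiRep_mul j H _ _ hh]

/-- The part of `T` stabilising the coset `r H`. -/
def semiStab (r : G) : Subgroup T :=
  (H.comap (MulAut.conj r⁻¹).toMonoidHom).comap j

/-- `s` stabilises the coset `r H` iff `r⁻¹ j(s) r` lies in `H`. -/
theorem mem_semiStab {r : G} {s : T} : s ∈ semiStab j H r ↔ r⁻¹ * j s * r ∈ H := by
  simp [semiStab]

variable {j H}

open Classical in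
/-- The family supported on `j(T) r` for the representatives `r`, with value `z r` at `r`. -/
def semiExt (j : T →* G) (H : Subgroup G) (z : G → U) : G → U := fun g =>
  if e : ∃ t : T, g = j t * semiRep j H g then e.choose • z (semiRep j H g) else 1

variable (hj : Function.Injective j)

include hj

theorem semiExt_eq (z : G → U) (g : G) (t : T) (e : g = j t * semiRep j H g) :
    semiExt j H z g = t • z (semiRep j H g) := by
  unfold semiExt
  rw [dif_pos ⟨t, e⟩]
  congr 1
  exact hj (mul_right_cancel ((Exists.choose_spec (⟨t, e⟩ : ∃ t : T,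
    g = j t * semiRep j H g)).symm.trans e))

theorem semiExt_semiIn {D : Subgroup U} (hD : ∀ t : T, ∀ u ∈ D, t • u ∈ D) {z : G → U}
    (hz : ∀ r, z r ∈ D) : SemiIn j D (semiExt j H z) := by
  have hr : ∀ t g, semiRep j H (j t * g) = semiRep j H g := fun t g => by
    simpa using semiRep_mul j H t g H.one_mem
  refine ⟨fun t g => ?_, fun g => ?_⟩
  · by_cases e : ∃ t' : T, g = j t' * semiRep j H g
    · obtain ⟨t', e⟩ := e
      rw [semiExt_eq hj z g t' e, semiExt_eq hj z _ (t * t') (by rw [hr, map_mul, mul_assoc, ← e]),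
        hr, mul_smul]
    · unfold semiExt
      rw [dif_neg e, dif_neg, smul_one]
      rintro ⟨t', e'⟩
      refine e ⟨t⁻¹ * t', ?_⟩
      rw [hr] at e'
      rw [map_mul, map_inv, mul_assoc, ← e', inv_mul_cancel_left]
  · unfold semiExt
    split_ifs with e
    · exact hD _ _ (hz _)
    · exact one_mem D

omit hj in
/-- Two invariant equivariant families agreeing at the representatives are equal. -/
theorem semi_ext_rep {D : Subgroup U} {x y : G → U} (hx : SemiIn j D x) (hy : SemiIn j D y)
    (hxH : ∀ g, ∀ h ∈ H, x (g * h) = x g) (hyH : ∀ g, ∀ h ∈ H, y (g * h) = y g)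
    (he : ∀ g, x (semiRep j H g) = y (semiRep j H g)) : x = y := by
  funext g
  obtain ⟨t, h, hh, e⟩ := semiRep_spec j H g
  rw [e, hxH _ _ hh, hyH _ _ hh, hx.equi, hy.equi, he]

variable [Fintype H]

omit [Fintype H] in
/-- The translates of a supported family. -/
theorem semiExt_mul_rep (z : G → U) {r : G} (hr : semiRep j H r = r) (h : H) (s : semiStab j H r)
    (e : r * (h : G) = j s * r) : semiExt j H z (r * h) = (s : T) • z r := by
  have hr' : semiRep j H (r * h) = r := by
    have := semiRep_mul j H (1 : T) r h.2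
    rwa [map_one, one_mul, hr] at this
  rw [semiExt_eq hj z _ (s : T) (by rw [hr']; exact e), hr']

omit hj in
omit [Fintype H] in
theorem semiExt_mul_rep_one (z : G → U) {r : G} (hr : semiRep j H r = r) (h : H)
    (e : ∀ s : semiStab j H r, r⁻¹ * j s * r ≠ h) : semiExt j H z (r * h) = 1 := by
  have hr' : semiRep j H (r * h) = r := by
    have := semiRep_mul j H (1 : T) r h.2
    rwa [map_one, one_mul, hr] at this
  refine dif_neg ?_
  rintro ⟨t, ht⟩
  rw [hr'] at ht
  refine e ⟨t, (mem_semiStab j H).mpr ?_⟩ ?_ <;> rw [mul_assoc, ← ht, inv_mul_cancel_left]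
  exact h.2

omit [Fintype H] in
theorem semiExt_rep (z : G → U) {r : G} (hr : semiRep j H r = r) : semiExt j H z r = z r := by
  rw [semiExt_eq hj z r 1 (by rw [map_one, one_mul, hr]), hr, one_smul]

/-- The sum over `H` of a supported family at a representative. -/
theorem prod_semiExt_rep {r : G} (hr : semiRep j H r = r) (z : G → U)
    [Fintype (semiStab j H r)] :
    ∏ h : H, semiExt j H z (r * h) = ∏ s : semiStab j H r, (s : T) • z r := by
  classical
  let φ : semiStab j H r → H := fun s => ⟨r⁻¹ * j s * r, (mem_semiStab j H).mp s.2⟩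
  have hφ : Function.Injective φ := fun a b hab => Subtype.ext (hj (by
    simpa [φ] using congrArg Subtype.val hab))
  refine (Finset.prod_of_injOn φ hφ.injOn (fun _ _ => Finset.mem_univ _) (fun h _ hh => ?_)
    fun s _ => ?_).symm
  · exact semiExt_mul_rep_one z hr h fun s hs => hh ⟨s, Finset.mem_univ _, Subtype.ext hs⟩
  · exact (semiExt_mul_rep hj z hr _ s (by simp [φ, mul_assoc])).symm

variable {D : Subgroup U} (hD : ∀ t : T, ∀ u ∈ D, t • u ∈ D) [Fintype T]
  (hT : ∀ (S : Subgroup T) [Fintype S], NormOK S D)

include hD hT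

/-- If `D` has trivial cohomology for every subgroup of `T`, invariant semilocal families
in `D` are norms of such families. -/
theorem semi_norm_surj {x : G → U} (hx : SemiIn j D x) (hxH : ∀ g, ∀ h ∈ H, x (g * h) = x g) :
    ∃ y, SemiIn j D y ∧ ∀ g, ∏ h : H, y (g * h) = x g := by
  classical
  have hz : ∀ r, ∃ z ∈ D, ∏ s : semiStab j H r, (s : T) • z = x r := fun r =>
    (hT _).surj _ (hx.mem r) fun s => by
      rw [← hx.equi, show j (s : T) * r = r * (r⁻¹ * j (s : T) * r) by group]
      exact hxH _ _ ((mem_semiStab j H).mp s.2)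
  choose z hzD hz using hz
  have hy := semiExt_semiIn (H := H) hj hD hzD
  refine ⟨semiExt j H z, hy, congrFun (semi_ext_rep
    ⟨fun t g => ?_, fun g => Subgroup.prod_mem _ fun h _ => hy.mem _⟩ hx (fun g h hh => ?_) hxH
    fun g => ?_)⟩
  · rw [Finset.smul_prod']
    simp only [mul_assoc, hy.equi]
  · simp only [mul_assoc]
    exact Fintype.prod_equiv (Equiv.mulLeft (⟨h, hh⟩ : H)) _ _ fun k => rfl
  · exact (prod_semiExt_rep hj (semiRep_idem j H g) z).trans (hz _)

omit hD hT [Fintype H] [Fintype T] in
/-- A supported family vanishes at the translates of a point off the supports by `h`, if it vanishes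
at every representative whose stabiliser misses `h`. -/
private theorem semiExt_mul_eq_one {g : G} (e : ¬ ∃ t : T, g = j t * semiRep j H g) (h : H)
    (z : G → U)
    (hz : ∀ r, (∀ u : semiStab j H r, (⟨r⁻¹ * j u * r, (mem_semiStab j H).mp u.2⟩ : H) ≠ h) →
      z r = 1) : semiExt j H z (g * h) = 1 := by
  by_cases e' : ∃ t : T, g * h = j t * semiRep j H (g * h)
  · obtain ⟨t, e'⟩ := e'
    rw [semiExt_eq hj _ _ t e']
    by_cases ex : ∃ u : semiStab j H (semiRep j H (g * h)),
        (⟨(semiRep j H (g * h))⁻¹ * j u * semiRep j H (g * h), (mem_semiStab j H).mp u.2⟩ : H) = h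
    · obtain ⟨u, hu⟩ := ex
      have hr : semiRep j H (g * h) = semiRep j H g := by
        simpa using semiRep_mul j H (1 : T) g h.2
      refine absurd ⟨t * (u : T)⁻¹, ?_⟩ e
      have hu' := congrArg Subtype.val hu
      simp only at hu'
      rw [← hr]
      revert hu' e'
      generalize (u : T) = v
      generalize semiRep j H (g * h) = r'
      intro e' hu'
      calc g = j t * r' * (h : G)⁻¹ := eq_mul_inv_of_mul_eq e'
        _ = j (t * v⁻¹) * r' := by rw [← hu', map_mul, map_inv]; group
    · have hz : z (semiRep j H (g * h)) = 1 := hz _ fun u hu => ex ⟨u, hu⟩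
      rw [hz, smul_one]
  · exact dif_neg e'

open scoped Classical in
/-- An invariant family supported on the representatives whose local norms are trivial is a product
of `V h (g * h) / V h g`: solve at each representative and move the solutions to `H`. -/
private theorem exists_semi_solution {w : G → U} (hw : SemiIn j D w)
    (hwsupp : ∀ g, (¬ ∃ t : T, g = j t * semiRep j H g) → w g = 1)
    (hwN : ∀ r, semiRep j H r = r → ∏ s : semiStab j H r, (s : T) • w r = 1) :
    ∃ V : H → G → U, (∀ h, SemiIn j D (V h)) ∧ ∀ g, ∏ h : H, V h (g * h) / V h g = w g := by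
  classical
  have hex : ∀ r, ∃ f : semiStab j H r → U, (∀ s, f s ∈ D) ∧
      (semiRep j H r = r → ∏ s : semiStab j H r, (s : T) • f s / f s = w r) := fun r => by
    by_cases hr : semiRep j H r = r
    · obtain ⟨f, h1, h2⟩ := (hT (semiStab j H r)).aug _ (hw.mem r) (hwN r hr)
      exact ⟨f, h1, fun _ => h2⟩
    · exact ⟨fun _ => 1, fun _ => one_mem D, fun h => absurd h hr⟩
  choose f hfD hf using hex
  -- move the local solutions to `H`
  let φ : ∀ r, semiStab j H r → H := fun r s => ⟨r⁻¹ * j s * r, (mem_semiStab j H).mp s.2⟩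
  have hφ : ∀ r, Function.Injective (φ r) := fun r a b hab => Subtype.ext (hj (by
    simpa [φ] using congrArg Subtype.val hab))
  let zV : H → G → U := fun h r =>
    if e : ∃ s : semiStab j H r, φ r s = h then f r e.choose else 1
  have hzV : ∀ h r, zV h r ∈ D := fun h r => by
    simp only [zV]; split_ifs <;> [exact hfD _ _; exact one_mem D]
  let V : H → G → U := fun h => semiExt j H (zV h)
  have hV : ∀ h, SemiIn j D (V h) := fun h => semiExt_semiIn hj hD (hzV h)
  refine ⟨V, hV, ?_⟩
  intro g
  by_cases e : ∃ t : T, g = j t * semiRep j H g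
  · obtain ⟨t, e⟩ := e
    suffices h0 : ∏ h : H, V h (semiRep j H g * h) / V h (semiRep j H g) =
        w (semiRep j H g) by
      conv_lhs => rw [e]
      conv_rhs => rw [e, hw.equi, ← h0, Finset.smul_prod']
      refine Finset.prod_congr rfl fun h _ => ?_
      rw [mul_assoc, (hV h).equi, (hV h).equi, smul_div']
    have hidem := semiRep_idem j H g
    set r := semiRep j H g
    rw [← hf r hidem]
    refine (Finset.prod_of_injOn (φ r) (hφ r).injOn (fun _ _ => Finset.mem_univ _)
      (fun h _ hh => ?_) fun s _ => ?_).symm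
    · have hne : ∀ s : semiStab j H r, r⁻¹ * j s * r ≠ h := fun s hs =>
        hh ⟨s, Finset.mem_univ _, Subtype.ext hs⟩
      have hz : zV h r = 1 := dif_neg fun ⟨s, hs⟩ => hne s (congrArg Subtype.val hs)
      show semiExt j H (zV h) (r * h) / semiExt j H (zV h) r = 1
      rw [semiExt_mul_rep_one _ hidem h hne, semiExt_rep hj _ hidem, hz, div_one]
    · have ex : ∃ u : semiStab j H r, φ r u = φ r s := ⟨s, rfl⟩
      have hz : zV (φ r s) r = f r s := by
        simp only [zV, dif_pos ex]
        exact congrArg (f r) (hφ r ex.choose_spec)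
      show (s : T) • f r s / f r s =
        semiExt j H (zV (φ r s)) (r * (φ r s : G)) / semiExt j H (zV (φ r s)) r
      rw [semiExt_mul_rep hj _ hidem _ s (by simp [φ, mul_assoc]), semiExt_rep hj _ hidem, hz]
  · rw [hwsupp g e]
    refine Finset.prod_eq_one fun h _ => ?_
    have h1 : V h g = 1 := dif_neg e
    rw [h1, div_one]
    exact semiExt_mul_eq_one hj e h (zV h) fun r hr => dif_neg fun ⟨u, hu⟩ => hr u hu

omit hj hD hT [Fintype H] [Fintype T] in
/-- A choice of `h ∈ H` for every coset `j(T) g`, with `g` in `j(T) r h` for the representative `r`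
of its double coset. -/
private theorem exists_cosetChoice :
    ∃ c : G → H, (∀ (t : T) g, c (j t * g) = c g) ∧
      ∀ g, ∃ t : T, g = j t * semiRep j H g * (c g : G) := by
  classical
  let c : G → H := fun g =>
    let g' := (Quotient.mk (QuotientGroup.rightRel j.range) g).out
    ⟨_, (semiRep_spec j H g').choose_spec.choose_spec.1⟩
  have hc : ∀ (t : T) g, c (j t * g) = c g := fun t g => by
    have : (Quotient.mk (QuotientGroup.rightRel j.range) (j t * g)) =
        Quotient.mk (QuotientGroup.rightRel j.range) g :=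
      Quotient.sound (QuotientGroup.rightRel_apply.mpr ⟨t⁻¹, by simp⟩)
    simp only [c, this]
  have hcs : ∀ g, ∃ t : T, g = j t * semiRep j H g * (c g : G) := fun g => by
    set g' := (Quotient.mk (QuotientGroup.rightRel j.range) g).out with hg'
    obtain ⟨t₀, ht₀⟩ : ∃ t₀ : T, g = j t₀ * g' := by
      obtain ⟨t₀, ht₀⟩ := QuotientGroup.rightRel_apply.mp
        (Quotient.mk_out (s := QuotientGroup.rightRel j.range) g)
      exact ⟨t₀, by rw [ht₀, inv_mul_cancel_right]⟩
    have hr : semiRep j H g = semiRep j H g' := by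
      rw [ht₀]; simpa using semiRep_mul j H t₀ g' H.one_mem
    refine ⟨t₀ * (semiRep_spec j H g').choose, ?_⟩
    rw [hr, map_mul, mul_assoc, mul_assoc]
    nth_rewrite 1 [ht₀]
    congr 1
    rw [← mul_assoc]
    exact (semiRep_spec j H g').choose_spec.choose_spec.2
  exact ⟨c, hc, hcs⟩

theorem semi_aug {x : G → U} (hx : SemiIn j D x) (hN : ∀ g, ∏ h : H, x (g * h) = 1) :
    ∃ F : H → G → U, (∀ h, SemiIn j D (F h)) ∧ ∀ g, ∏ h : H, F h (g * h) / F h g = x g := by
  classical
  obtain ⟨c, hc, hcs⟩ := exists_cosetChoice (j := j) (H := H)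
  let X : H → G → U := fun h g => if c g = h then x g else 1
  have hX : ∀ h, SemiIn j D (X h) := fun h =>
    ⟨fun t g => by simp only [X, hc, hx.equi]; split_ifs <;> simp,
      fun g => by simp only [X]; split_ifs <;> [exact hx.mem g; exact one_mem D]⟩
  let w : G → U := fun g => ∏ h : H, X h (g * h)
  have hw : SemiIn j D w := ⟨fun t g => by
      simp only [w, Finset.smul_prod', mul_assoc, (hX _).equi],
    fun g => Subgroup.prod_mem _ fun h _ => (hX h).mem _⟩
  have hwsupp : ∀ g, (¬ ∃ t : T, g = j t * semiRep j H g) → w g = 1 := fun g hg =>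
    Finset.prod_eq_one fun h _ => if_neg fun hch => hg <| by
      obtain ⟨t, ht⟩ := hcs (g * h)
      have hr : semiRep j H (g * h) = semiRep j H g := by
        simpa using semiRep_mul j H 1 g h.2
      rw [hr, hch] at ht
      exact ⟨t, mul_right_cancel ht⟩
  have hwext : semiExt j H w = w := by
    funext g
    by_cases e : ∃ t : T, g = j t * semiRep j H g
    · obtain ⟨t, e⟩ := e
      rw [semiExt_eq hj w g t e]
      conv_rhs => rw [e, hw.equi]
    · rw [hwsupp g e]; exact dif_neg e
  have hwN : ∀ r, semiRep j H r = r → ∏ s : semiStab j H r, (s : T) • w r = 1 := fun r hr => by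
    rw [← prod_semiExt_rep hj hr w, hwext]
    simp only [w]
    rw [Finset.prod_comm]
    refine Eq.trans (Finset.prod_congr rfl fun h _ => ?_)
      ((Finset.prod_comm.trans (Finset.prod_congr rfl fun k _ => ?_)).trans
        (hN r) : ∏ h : H, ∏ k : H, X h (r * k) = 1)
    · simp only [mul_assoc]
      exact Fintype.prod_equiv (Equiv.mulRight h) _ _ fun k => rfl
    · simp [X]
  obtain ⟨V, hV, hVw⟩ := exists_semi_solution hj hD hT hw hwsupp hwN
  refine ⟨fun h g => V h g / X h g, fun h => ⟨fun t g => by
      show V h _ / X h _ = t • (V h g / X h g)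
      rw [(hV h).equi, (hX h).equi, smul_div'],
    fun g => div_mem ((hV h).mem g) ((hX h).mem g)⟩, fun g => ?_⟩
  have hsum : ∏ h : H, X h g = x g := by simp [X]
  calc ∏ h : H, (V h (g * h) / X h (g * h)) / (V h g / X h g)
      = ∏ h : H, (V h (g * h) / V h g) * (X h g / X h (g * h)) :=
        Finset.prod_congr rfl fun h _ => by
          rw [div_div_eq_mul_div, div_mul_div_comm]
          rw [div_mul_eq_mul_div, div_div, mul_comm (X h (g * h))]
    _ = x g := by
        rw [Finset.prod_mul_distrib, hVw, Finset.prod_div_distrib, hsum]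
        exact mul_div_cancel _ _

end Fermat.Agent.CFT.Idele
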