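import Fermat.Agent.CFT.Idele.Glue
import Fermat.Agent.CFT.Local.PowIndex

/-!
# Places of a subfield and the index of local `p`-th powers

`∑ [K_v : ℚ_q] = [K : ℚ]` over the places `v` over `q`, and
`[J_S : B_S] = p ^ (2 #S + [K : ℚ])` for ideles supported at `S ∋ p` modulo `p`-th powers.
-/

set_option autoImplicit false

noncomputable section

namespace Fermat.Agent.CFT.Idele

open Fermat.Agent.Arith IntermediateField

/-- The places of `K` over `q`. -/
abbrev PlaceOver (q : Nat.Primes) (K : IntermediateField ℚ QBar) : Type :=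
  Quotient (placeSetoid q K)

/-- The restriction of `g` to `K`, as an embedding. -/
def embOfGQ (K : IntermediateField ℚ QBar) (g : GQ) : K →ₐ[ℚ] QBar := g.toAlgHom.comp K.val

theorem embOfGQ_eq_iff {K : IntermediateField ℚ QBar} {g g' : GQ} :
    embOfGQ K g = embOfGQ K g' ↔ g⁻¹ * g' ∈ K.fixingSubgroup := by
  rw [IntermediateField.mem_fixingSubgroup_iff]
  constructor
  · intro h x hx
    rw [AlgEquiv.mul_apply, show g' x = g x from (AlgHom.congr_fun h ⟨x, hx⟩).symm]
    exact g.symm_apply_apply x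
  · intro h
    refine AlgHom.ext fun x => ?_
    show g (x : QBar) = g' (x : QBar)
    conv_lhs => rw [← h x x.2, AlgEquiv.mul_apply]
    exact g.apply_symm_apply _

theorem embOfGQ_surjective (K : IntermediateField ℚ QBar) : Function.Surjective (embOfGQ K) := by
  intro φ
  have : IsGalois ℚ QBar := inferInstance
  refine ⟨AlgEquiv.ofBijective (φ.liftNormal QBar)
    (Algebra.IsAlgebraic.algHom_bijective _), AlgHom.ext fun x => ?_⟩
  exact AlgHom.liftNormal_commutes φ QBar x

variable {q : Nat.Primes} {K : IntermediateField ℚ QBar}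

/-- The embedding attached to a place and a local embedding. -/
def placeEmb (x : Σ c : PlaceOver q K, fieldAt q K c.out →ₐ[ℚ_[(q : ℕ)]] Ω q) :
    K →ₐ[ℚ] QBar :=
  embOfGQ K (loc q (AlgEquiv.ofBijective (x.2.liftNormal (Ω q))
    (Algebra.IsAlgebraic.algHom_bijective _)) * x.1.out)

theorem placeEmb_bijective : Function.Bijective (placeEmb (q := q) (K := K)) := by
  constructor
  -- Equal embeddings have equal double cosets and agree on the field at the place.
  · rintro ⟨c, φ⟩ ⟨c', φ'⟩ h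
    have h' := embOfGQ_eq_iff.mp h
    set τ := AlgEquiv.ofBijective (φ.liftNormal (Ω q)) (Algebra.IsAlgebraic.algHom_bijective _)
      with hτ
    set τ' := AlgEquiv.ofBijective (φ'.liftNormal (Ω q)) (Algebra.IsAlgebraic.algHom_bijective _)
      with hτ'
    obtain rfl : c = c' := by
      rw [← c.out_eq, ← c'.out_eq]
      refine Quotient.sound (DoubleCoset.rel_iff.mpr ⟨loc q (τ'⁻¹ * τ),
        MonoidHom.mem_range.mpr ⟨_, rfl⟩, _, h', ?_⟩)
      simp [mul_assoc]
    have hfix : c.out⁻¹ * loc q (τ⁻¹ * τ') * c.out ∈ K.fixingSubgroup := by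
      convert h' using 1
      simp [mul_assoc]
    refine congrArg (Sigma.mk c) (AlgHom.ext fun y => ?_)
    have := algEquiv_eq_self_of_conj hfix y.2
    have e : τ' (y : Ω q) = τ (y : Ω q) := by
      conv_rhs => rw [← this]
      exact (τ.apply_symm_apply _).symm
    exact (AlgHom.liftNormal_commutes φ (Ω q) y).symm.trans
      (e.symm.trans (AlgHom.liftNormal_commutes φ' (Ω q) y))
  · intro ψ
    -- Every embedding is a local automorphism times the chosen representative.
    obtain ⟨g, rfl⟩ := embOfGQ_surjective K ψ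
    obtain ⟨τ, s, hs, e⟩ := placeRep_spec (q := q) (K := K) g
    let c : PlaceOver q K := Quotient.mk (placeSetoid q K) g
    refine ⟨⟨c, τ.toAlgHom.comp (fieldAt q K c.out).val⟩, ?_⟩
    set τ' := AlgEquiv.ofBijective ((τ.toAlgHom.comp (fieldAt q K c.out).val).liftNormal (Ω q))
      (Algebra.IsAlgebraic.algHom_bijective _)
    have hfix : τ⁻¹ * τ' ∈ (fieldAt q K c.out).fixingSubgroup := by
      rw [IntermediateField.mem_fixingSubgroup_iff]
      intro y hy
      rw [AlgEquiv.mul_apply, show τ' y = τ y from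
        AlgHom.liftNormal_commutes (τ.toAlgHom.comp (fieldAt q K c.out).val) (Ω q) ⟨y, hy⟩]
      exact τ.symm_apply_apply y
    refine embOfGQ_eq_iff.mpr ?_
    have h1 := inv_mem ((fixes_fieldAt_iff _ _).mp hfix)
    have h2 := mul_mem h1 hs
    conv in (occs := *) g => all_goals rw [e]
    convert h2 using 1
    show (loc q τ' * c.out)⁻¹ * (loc q τ * c.out * s) =
      (c.out⁻¹ * loc q (τ⁻¹ * τ') * c.out)⁻¹ * s
    rw [map_mul, map_inv]
    group

variable [FiniteDimensional ℚ K]

instance finite_placeOver : Finite (PlaceOver q K) := by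
  refine Finite.of_surjective (fun φ : K →ₐ[ℚ] QBar => ((Equiv.ofBijective _
    (placeEmb_bijective (q := q))).symm φ).1) fun c => ⟨placeEmb ⟨c, (fieldAt q K c.out).val⟩, ?_⟩
  show ((Equiv.ofBijective _ placeEmb_bijective).symm
    (Equiv.ofBijective _ placeEmb_bijective ⟨c, _⟩)).1 = c
  rw [Equiv.symm_apply_apply]

/-- `∑ [K_v : ℚ_q] = [K : ℚ]`. -/
theorem sum_finrank_fieldAt [Fintype (PlaceOver q K)] :
    ∑ c : PlaceOver q K, Module.finrank ℚ_[(q : ℕ)] (fieldAt q K c.out) = Module.finrank ℚ K := by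
  rw [← AlgHom.card ℚ K QBar, ← Fintype.card_congr (Equiv.ofBijective _
    (placeEmb_bijective (q := q) (K := K))), Fintype.card_sigma]
  exact Finset.sum_congr rfl fun c _ => (AlgHom.card ℚ_[(q : ℕ)] _ (Ω q)).symm

/-- The index of a product of subgroups. -/
theorem index_pi_dep {ι : Type*} [Fintype ι] {G : ι → Type*} [∀ i, CommGroup (G i)]
    (H : ∀ i, Subgroup (G i)) : (Subgroup.pi Set.univ H).index = ∏ i, (H i).index := by
  let φ : (∀ i, G i) →* ∀ i, G i ⧸ H i :=
    MonoidHom.pi fun i => (QuotientGroup.mk' (H i)).comp (Pi.evalMonoidHom G i)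
  have hker : φ.ker = Subgroup.pi Set.univ H := by
    ext x
    rw [MonoidHom.mem_ker, Subgroup.mem_pi, funext_iff]
    exact ⟨fun h i _ => (QuotientGroup.eq_one_iff (x i)).mp (h i),
      fun h i => (QuotientGroup.eq_one_iff (x i)).mpr (h i (Set.mem_univ i))⟩
  have hsurj : Function.Surjective φ := fun y =>
    ⟨fun i => (y i).out, funext fun i => QuotientGroup.out_eq' (y i)⟩
  rw [← hker, Subgroup.index_ker, MonoidHom.range_eq_top.mpr hsurj, Subgroup.card_top, Nat.card_pi]
  rfl

/-- Ideles of `K` with unit values outside `S`. -/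
def unitsOutside (S : Finset Nat.Primes) (K : IntermediateField ℚ QBar) : Subgroup PreIdele where
  carrier := {f | f ∈ idl K ∧ ∀ q ∉ S, ∀ g, ‖((f q g : (Ω q)ˣ) : Ω q)‖ = 1}
  one_mem' := ⟨one_mem _, fun q _ g => by simp⟩
  mul_mem' {f f'} hf hf' := ⟨mul_mem hf.1 hf'.1, fun q hq g => by
    simp [hf.2 q hq g, hf'.2 q hq g]⟩
  inv_mem' {f} hf := ⟨inv_mem hf.1, fun q hq g => by simp [hf.2 q hq g]⟩

/-- Local `p`-th powers at `S`, units elsewhere. -/
def powAt (p : ℕ) (S : Finset Nat.Primes) (K : IntermediateField ℚ QBar) : Subgroup PreIdele where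
  carrier := {f | f ∈ unitsOutside S K ∧
    ∀ q ∈ S, ∀ g, placeRep q K g = g → ∃ y ∈ fieldAt q K g, y ^ p = (f q g : (Ω q)ˣ)}
  one_mem' := ⟨one_mem _, fun q _ g _ => ⟨1, one_mem _, by simp⟩⟩
  mul_mem' {f f'} hf hf' := ⟨mul_mem hf.1 hf'.1, fun q hq g hg => by
    obtain ⟨y, hy, e⟩ := hf.2 q hq g hg
    obtain ⟨y', hy', e'⟩ := hf'.2 q hq g hg
    exact ⟨y * y', mul_mem hy hy', by simp [mul_pow, e, e']⟩⟩
  inv_mem' {f} hf := ⟨inv_mem hf.1, fun q hq g hg => by
    obtain ⟨y, hy, e⟩ := hf.2 q hq g hg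
    exact ⟨y⁻¹, inv_mem hy, by simp [inv_pow, e]⟩⟩

/-- The places over `S`. -/
abbrev SPlace (S : Finset Nat.Primes) (K : IntermediateField ℚ QBar) : Type :=
  Σ q : S, PlaceOver (q : Nat.Primes) K

/-- The completion at a place over `S`. -/
abbrev placeField {S : Finset Nat.Primes} (i : SPlace S K) :
    IntermediateField ℚ_[((i.1 : Nat.Primes) : ℕ)] (Ω (i.1 : Nat.Primes)) :=
  fieldAt (i.1 : Nat.Primes) K i.2.out

omit [FiniteDimensional ℚ K] in
theorem placeRep_out (c : PlaceOver q K) : placeRep q K c.out = c.out :=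
  congrArg Quotient.out (Quotient.out_eq c)

variable {S : Finset Nat.Primes}

/-- The components of an idele at the places over `S`. -/
def compHom (S : Finset Nat.Primes) (K : IntermediateField ℚ QBar) :
    unitsOutside S K →* ((i : SPlace S K) → (placeField i)ˣ) :=
  MonoidHom.pi fun i =>
    { toFun := fun f => Units.mk0 ⟨((f : PreIdele) i.1 i.2.out : Ω (i.1 : Nat.Primes)),
        value_mem_fieldAt f.2.1 _⟩ fun h => Units.ne_zero _ (congrArg Subtype.val h)
      map_one' := Units.ext (Subtype.ext rfl)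
      map_mul' := fun _ _ => Units.ext (Subtype.ext rfl) }

omit [FiniteDimensional ℚ K] in
theorem coe_compHom (f : unitsOutside S K) (i : SPlace S K) :
    (((compHom S K f i : (placeField i)ˣ) : placeField i) : Ω (i.1 : Nat.Primes)) =
      ((f : PreIdele) i.1 i.2.out : Ω (i.1 : Nat.Primes)) := rfl

open Classical in
/-- The values attached to components. -/
def compValue (v : (i : SPlace S K) → (placeField i)ˣ) (q : Nat.Primes) (g : GQ) : (Ω q)ˣ :=
  if h : q ∈ S ∧ placeRep q K g = g then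
    Units.map (placeField (⟨⟨q, h.1⟩, Quotient.mk (placeSetoid q K) g⟩
      : SPlace S K)).val.toRingHom.toMonoidHom
      (v ⟨⟨q, h.1⟩, Quotient.mk (placeSetoid q K) g⟩)
  else 1

omit [FiniteDimensional ℚ K] in
theorem compHom_surjective (S : Finset Nat.Primes) :
    Function.Surjective (compHom S K) := by
  intro v
  have hz : ∀ q g, ((compValue v q g : (Ω q)ˣ) : Ω q) ∈ fieldAt q K g := fun q g => by
    unfold compValue
    split_ifs with h
    · have key : ∀ r : GQ, r = g → ∀ y : fieldAt q K r, (y : Ω q) ∈ fieldAt q K g := by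
        rintro _ rfl y
        exact y.2
      exact key _ h.2 _
    · exact one_mem _
  have hzn : ∀ q ∉ S, ∀ g, ‖((compValue v q g : (Ω q)ˣ) : Ω q)‖ = 1 := fun q hq g => by
    unfold compValue
    rw [dif_neg fun h => hq h.1, Units.val_one, norm_one]
  refine ⟨⟨glue K (fun q => placeRep q K) (compValue v),
    glue_placeRep_mem_idl hz S hzn, fun q hq g => ?_⟩, ?_⟩
  · rw [norm_value_eq (glue_placeRep_mem_idl hz S hzn) q g, glue_placeRep hz (placeRep_idem g)]
    exact hzn q hq _
  · funext ⟨⟨q, hq⟩, c⟩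
    refine Units.ext (Subtype.ext ?_)
    rw [coe_compHom]
    show ((glue K (fun q => placeRep q K) (compValue v) q c.out : (Ω q)ˣ) : Ω q) = _
    rw [glue_placeRep hz (placeRep_out c)]
    unfold compValue
    rw [dif_pos (And.intro hq (placeRep_out c))]
    have key : ∀ (c' : PlaceOver q K), c' = c →
        (((v ⟨⟨q, hq⟩, c'⟩ : (placeField (⟨⟨q, hq⟩, c'⟩ : SPlace S K))ˣ) :
          placeField (⟨⟨q, hq⟩, c'⟩ : SPlace S K)) : Ω q) =
        (((v ⟨⟨q, hq⟩, c⟩ : (placeField (⟨⟨q, hq⟩, c⟩ : SPlace S K))ˣ) :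
          placeField (⟨⟨q, hq⟩, c⟩ : SPlace S K)) : Ω q) := by rintro _ rfl; rfl
    exact key _ (Quotient.out_eq c)

variable {p : ℕ} [hp : Fact p.Prime] {ζ : QBar}

omit [FiniteDimensional ℚ K] hp in
theorem exists_pow_eq_of_mem (f : unitsOutside S K) (i : SPlace S K)
    (h : compHom S K f i ∈ (powMonoidHom p : (placeField i)ˣ →* (placeField i)ˣ).range) :
    ∃ y ∈ placeField i, y ^ p = ((f : PreIdele) i.1 i.2.out : Ω (i.1 : Nat.Primes)) := by
  obtain ⟨y, hy⟩ := h
  refine ⟨((y : placeField i) : Ω (i.1 : Nat.Primes)), (y : placeField i).2, ?_⟩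
  rw [← coe_compHom f i, ← hy, powMonoidHom_apply, Units.val_pow_eq_pow_val, SubmonoidClass.coe_pow]

omit [FiniteDimensional ℚ K] in
theorem powAt_eq_comap :
    (powAt p S K).subgroupOf (unitsOutside S K) = (Subgroup.pi Set.univ fun i : SPlace S K =>
      (powMonoidHom p : (placeField i)ˣ →* (placeField i)ˣ).range).comap (compHom S K) := by
  ext f
  rw [Subgroup.mem_subgroupOf, Subgroup.mem_comap, Subgroup.mem_pi]
  constructor
  · rintro hf ⟨⟨q, hq⟩, c⟩ -
    obtain ⟨y, hy, e⟩ := hf.2 q hq c.out (placeRep_out c)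
    refine ⟨Units.mk0 ⟨y, hy⟩ fun h => ?_, Units.ext (Subtype.ext e)⟩
    have : y = 0 := congrArg Subtype.val h
    rw [this, zero_pow hp.out.ne_zero] at e
    exact Units.ne_zero _ e.symm
  · intro h
    refine ⟨f.2, fun q hq g hg => ?_⟩
    have hex := exists_pow_eq_of_mem f (⟨⟨q, hq⟩, Quotient.mk (placeSetoid q K) g⟩ : SPlace S K)
      (h _ (Set.mem_univ _))
    have key : ∀ r : GQ, r = g →
        (∃ y ∈ fieldAt q K r, y ^ p = ((f : PreIdele) q r : (Ω q)ˣ)) →
          ∃ y ∈ fieldAt q K g, y ^ p = ((f : PreIdele) q g : (Ω q)ˣ) := by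
      rintro _ rfl e
      exact e
    exact key _ hg hex

/-- `[J_S : B_S] = p ^ (2 #S + [K : ℚ])`. -/
theorem relIndex_powAt (hp2 : p ≠ 2) (hζ : IsPrimitiveRoot ζ p) (hζK : ζ ∈ K)
    {S : Finset Nat.Primes} (hpS : (⟨p, hp.out⟩ : Nat.Primes) ∈ S)
    [∀ q, Fintype (PlaceOver q K)] :
    (powAt p S K).relIndex (unitsOutside S K) =
      p ^ (2 * (∑ q ∈ S, Fintype.card (PlaceOver q K)) + Module.finrank ℚ K) := by
  classical
  rw [Subgroup.relIndex, powAt_eq_comap,
    Subgroup.index_comap_of_surjective _ (compHom_surjective S), index_pi_dep]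
  have hidx : ∀ i : SPlace S K, (powMonoidHom p : (placeField i)ˣ →* (placeField i)ˣ).range.index =
      p ^ 2 * (if ((i.1 : Nat.Primes) : ℕ) = p then
        p ^ Module.finrank ℚ_[((i.1 : Nat.Primes) : ℕ)] (placeField i) else 1) := by
    rintro ⟨⟨q, hq⟩, c⟩
    have hζq : IsPrimitiveRoot (⟨emb q (c.out ζ), emb_mem_fieldAt c.out hζK⟩ : fieldAt q K c.out)
        p :=
      IsPrimitiveRoot.of_map_of_injective (f := (fieldAt q K c.out).val)
        ((hζ.map_of_injective c.out.injective).map_of_injective (emb q).toRingHom.injective)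
        (fieldAt q K c.out).val.injective
    show (powMonoidHom p : (fieldAt q K c.out)ˣ →* _).range.index = _
    rw [Local.index_range_pow hp2, Local.card_ker_pow_of_primitive hζq, sq]
  simp only [hidx]
  rw [Fintype.prod_sigma]
  simp only [Finset.prod_mul_distrib, Finset.prod_const, Finset.card_univ]
  rw [pow_add]
  congr 1
  · rw [Finset.prod_pow_eq_pow_sum, ← Finset.sum_coe_sort S, ← pow_mul]
  · rw [Finset.prod_eq_single (⟨⟨p, hp.out⟩, hpS⟩ : S)]
    · simp only [if_pos]
      rw [Finset.prod_pow_eq_pow_sum]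
      exact congrArg (p ^ ·) sum_finrank_fieldAt
    · rintro ⟨q, hq⟩ - hne
      exact Finset.prod_eq_one fun c _ => if_neg fun h => hne (Subtype.ext (Subtype.ext h))
    · exact fun h => absurd (Finset.mem_univ _) h

end Fermat.Agent.CFT.Idele
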