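import Fermat.Agent.CFT.Local.Global
import Fermat.Agent.CFT.Local.Residue

/-!
# Decomposition groups at unramified primes are generated by Frobenius
-/

set_option autoImplicit false

noncomputable section

namespace Fermat.Agent.CFT.Idele

open Fermat.Agent.Arith

/-- If inertia at `padicPlace q` fixes `L` and `σ` is a Frobenius there, every local automorphism
acts on `L` as a power of `σ`. -/
theorem exists_pow_restrict_eq {q : ℕ} [Fact q.Prime] (L : IntermediateField ℚ QBar)
    [Normal ℚ L] [FiniteDimensional ℚ L]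
    (hin : ∀ g ∈ (padicPlace q).inertiaSubgroupIn ℚ, ∀ x : L, g (x : QBar) = (x : QBar))
    {σ : GQ} (hσ : (padicPlace q).IsFrobeniusAt σ q)
    (τ : PadicAlgCl q ≃ₐ[ℚ_[q]] PadicAlgCl q) :
    ∃ i : ℕ, AlgEquiv.restrictNormalHom L (localGaloisToGlobal q τ) =
      AlgEquiv.restrictNormalHom L σ ^ i := by
  set E := Local.localField q L with hE
  obtain ⟨hstab, -⟩ := isFrobeniusAt_iff_forall_mem.mp hσ
  have hcomm : ∀ x : L, ((AlgEquiv.restrictNormalHom L σ x : L) : QBar) = σ (x : QBar) :=
    fun x => AlgEquiv.restrictNormal_commutes σ L x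
  obtain ⟨s, hs⟩ := (Local.mem_range_toGlobal_iff q L (AlgEquiv.restrictNormalHom L σ)).mpr
    fun x hx => by rw [hcomm]; exact map_mem_of_mem_decomposition hstab hx
  have hfrob := Local.resAut_eq_frobenius q L hσ hs
  have hinj : Function.Injective (Local.resAut E) := by
    rw [← MonoidHom.ker_eq_bot_iff]
    exact (Local.inertia_eq_bot_iff q L).mpr hin
  set t := AlgEquiv.restrictNormalHom E τ with ht
  obtain ⟨i, hi⟩ := (FiniteField.bijective_frobeniusAlgEquivOfAlgebraic_pow (ZMod q)
    (Local.ResField E)).2 (Local.resAut E t)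
  refine ⟨i, ?_⟩
  have hti : t = s ^ (i : ℕ) := hinj (by rw [map_pow, hfrob]; exact hi.symm)
  rw [← Local.toGlobal_restrict, ← ht, hti, map_pow, hs]

end Fermat.Agent.CFT.Idele
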