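import Fermat.Agent.CFT.Idele.SecondIneq
import Fermat.Agent.CFT.Idele.PsiNorm
import Fermat.Agent.CFT.Idele.LocalTriv
import Fermat.Agent.CFT.Coh.Existence
import Fermat.Agent.CFT.Duality.Incl
import Fermat.Agent.CFT.Duality.Semilocal

/-!
# The fundamental class

For `L` finite normal over `ℚ` containing a primitive `p`-th root of unity, the idele classes of
`L` form a class formation at the `p`-subgroups: the class comes from the cyclic extension cut out
by an auxiliary prime.

The main theorem is `exists_fundamental`.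
-/

set_option autoImplicit false

noncomputable section

namespace Fermat.Agent.CFT.Idele

open Fermat.Agent.Arith IntermediateField Fermat.Agent.CFT.Local
open Fermat.Agent.CFT.Duality groupCohomology

local instance normalBot : Normal ℚ (⊥ : IntermediateField ℚ QBar) :=
  Normal.of_algEquiv (IntermediateField.botEquiv ℚ QBar).symm

/-- Shortcut: the search for a commutative group behind a quotient is slow. -/
local instance (priority := 10000) classCommGroup (L : IntermediateField ℚ QBar)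
    [FiniteDimensional ℚ L] [Normal ℚ L] : CommGroup (ClassGrp L) :=
  QuotientGroup.Quotient.commGroup _

/-- Shortcut. -/
local instance (priority := 10000) classAddMonoid (L : IntermediateField ℚ QBar)
    [FiniteDimensional ℚ L] [Normal ℚ L] : AddMonoid (C L) :=
  (cAddCommGroup L).toAddGroup.toAddMonoid

/-- Shortcut. -/
local instance (priority := 10000) classAddGroup (L : IntermediateField ℚ QBar)
    [FiniteDimensional ℚ L] [Normal ℚ L] : AddGroup (C L) :=
  (cAddCommGroup L).toAddGroup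

/-- Shortcut. -/
local instance (priority := 10000) unitsMulActionFast {k L : Type*} [Field k] [Field L]
    [Algebra k L] : MulAction (L ≃ₐ[k] L) Lˣ := (galUnitsMulAction).toMulAction

/-- A sum over a group, fibred along a surjection. -/
theorem sum_fiber {G Q M : Type*} [Group G] [Group Q] [Fintype G] [Fintype Q] [AddCommMonoid M]
    (π : G →* Q) [Fintype π.ker] (s : Q → G) (hs : ∀ σ, π (s σ) = σ) (f : G → M) :
    ∑ g : G, f g = ∑ σ : Q, ∑ k : π.ker, f (s σ * k) := by
  have e : ∑ g : G, f g = ∑ x : Q × π.ker, f (s x.1 * x.2) := by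
    refine (Fintype.sum_bijective (fun x : Q × π.ker => s x.1 * (x.2 : G)) ⟨fun x y h => ?_,
      fun g => ⟨(π g, ⟨(s (π g))⁻¹ * g, by rw [MonoidHom.mem_ker, map_mul, map_inv, hs,
        inv_mul_cancel]⟩), mul_inv_cancel_left _ _⟩⟩ _ _ fun _ => rfl).symm
    have h1 : x.1 = y.1 := by
      simpa [hs, MonoidHom.mem_ker.1 x.2.2, MonoidHom.mem_ker.1 y.2.2] using congrArg π h
    refine Prod.ext h1 (Subtype.ext (mul_left_cancel (a := s x.1) ?_))
    simpa [h1] using h
  rw [e, Fintype.sum_prod_type]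

/-! ### The character of an auxiliary prime -/

section Psi

variable {n : ℕ} (a : Aux n) (hn : Odd n)

/-- The character on rational idele classes. -/
def psiC : C (⊥ : IntermediateField ℚ QBar) →+ ZMod n :=
  MonoidHom.toAdditiveLeft (QuotientGroup.lift
    (prinL (⊥ : IntermediateField ℚ QBar)).range (psi a) (by
      rintro _ ⟨x, rfl⟩
      exact psi_prin a hn
        (x := Units.map (⊥ : IntermediateField ℚ QBar).val.toRingHom.toMonoidHom x) _))

theorem psiC_proj (f : J (⊥ : IntermediateField ℚ QBar)) :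
    psiC a hn (proj _ f) = Multiplicative.toAdd (psi a f.toMul) := rfl

variable [NeZero n]

omit [NeZero n] in
/-- The character kills norms from the cyclic field. -/
theorem psiC_norm (t : C (⊥ : IntermediateField ℚ QBar)) (v : C a.fixedChi)
    (h : inclC bot_le t = ∑ τ : a.fixedChi ≃ₐ[ℚ] a.fixedChi, τ • v) : psiC a hn t = 0 := by
  classical
  obtain ⟨y, rfl⟩ := proj_surjective _ v
  set N : J a.fixedChi := ∑ τ : a.fixedChi ≃ₐ[ℚ] a.fixedChi, τ • y with hN
  obtain ⟨P, hP⟩ := exists_inclJ_eq (K := ⊥) bot_le (x := N) fun σ _ => by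
    rw [hN, Finset.smul_sum]
    exact Fintype.sum_equiv (Equiv.mulLeft σ) _ _ fun τ => (mul_smul σ τ y).symm
  have ht : t = proj _ P := inclC_injective bot_le (by
    rw [h, inclC_proj, hP, hN, map_sum]
    simp only [proj_smul])
  rw [ht, psiC_proj, psi_norm a y.toMul P.toMul ?_, toAdd_one]
  have e := congrArg (fun z : J a.fixedChi => ((z.toMul : idl a.fixedChi) : PreIdele)) hP
  rw [toMul_inclJ, hN, toMul_sum] at e
  exact e

omit [NeZero n] in
/-- A unit at `q` with logarithm one. -/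
theorem exists_unit_log_one : ∃ z : ℤ_[(a.q : ℕ)]ˣ,
    Multiplicative.toAdd (a.log (Units.map PadicInt.toZMod.toMonoidHom z)) = 1 := by
  obtain ⟨w, hw⟩ := a.surj (Multiplicative.ofAdd 1)
  obtain ⟨z, hz⟩ := ZMod.ringHom_surjective (PadicInt.toZMod (p := (a.q : ℕ))) (w : ZMod (a.q : ℕ))
  have hu : IsUnit z := by
    by_contra h
    rw [PadicInt.not_isUnit_iff, ← PadicInt.mem_nonunits, ← IsLocalRing.mem_maximalIdeal,
      ← PadicInt.ker_toZMod, RingHom.mem_ker, hz] at h
    exact w.ne_zero h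
  refine ⟨hu.unit, ?_⟩
  rw [show Units.map PadicInt.toZMod.toMonoidHom hu.unit = w from Units.ext hz, hw, toAdd_ofAdd]

omit [NeZero n] in
theorem levelRes_bot (L : IntermediateField ℚ QBar) [Normal ℚ L]
    (σ : L ≃ₐ[ℚ] L) : levelRes (bot_le : ⊥ ≤ L) σ = 1 := AlgEquiv.ext fun x => by
  obtain ⟨r, hr⟩ := IntermediateField.mem_bot.1 x.2
  rw [show x = algebraMap ℚ _ r from Subtype.ext hr.symm, AlgEquiv.commutes, AlgEquiv.one_apply]

omit [NeZero n] in
/-- The sum of the conjugates of an idele at one place. -/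
theorem sum_smul_loc (L : IntermediateField ℚ QBar) [FiniteDimensional ℚ L] [Normal ℚ L]
    (q : Nat.Primes) (y : (E L q)ˣ) (zB : (E (⊥ : IntermediateField ℚ QBar) q)ˣ)
    (hy : ((∏ t : E L q ≃ₐ[ℚ_[(q : ℕ)]] E L q, ((t • y : (E L q)ˣ) : E L q) : E L q) : Ω q) =
      ((zB : E (⊥ : IntermediateField ℚ QBar) q) : Ω q)) :
    ∑ σ : L ≃ₐ[ℚ] L, σ • loc' L q (Additive.ofMul y) =
      inclJ bot_le (loc' (⊥ : IntermediateField ℚ QBar) q (Additive.ofMul zB)) := by
  classical
  refine Duality.J_ext fun q' τ => Units.ext (Subtype.ext ?_)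
  rw [toMul_inclJ, coe_val_inclIdl, Duality.val_sum]
  simp only [Duality.val_smul_J]
  rcases eq_or_ne q' q with rfl | hne
  · have e : ∏ σ : L ≃ₐ[ℚ] L, val (loc' L q' (Additive.ofMul y)).toMul q' (τ * σ) =
        ∏ t : E L q' ≃ₐ[ℚ_[(q' : ℕ)]] E L q', t • y := by
      rw [Fintype.prod_equiv (Equiv.mulLeft τ)
        (fun σ => val (loc' L q' (Additive.ofMul y)).toMul q' (τ * σ))
        (fun σ => val (loc' L q' (Additive.ofMul y)).toMul q' σ) fun σ => rfl]
      refine (Fintype.prod_of_injective (toGlobal (q' : ℕ) L) (toGlobal_injective _ L)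
        (fun t => t • y) _ (fun σ hσ => ?_) fun t => ?_).symm
      · exact val_locIdl_of_notMem q' y fun ⟨t, ht⟩ => hσ ⟨t, ht⟩
      · exact (val_locIdl_self q' y t).symm
    have h0 : val (loc' (⊥ : IntermediateField ℚ QBar) q' (Additive.ofMul zB)).toMul q'
        (levelRes bot_le τ) = zB := by
      have := val_locIdl_self (L := (⊥ : IntermediateField ℚ QBar)) q' zB 1
      rw [map_one, one_smul] at this
      rw [levelRes_bot L τ]
      exact this
    rw [e, h0, Units.coe_prod, hy]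
  · rw [show val (loc' (⊥ : IntermediateField ℚ QBar) q (Additive.ofMul zB)).toMul q'
      (levelRes bot_le τ) = 1 from val_locIdl_of_ne q _ hne _,
      Finset.prod_eq_one (f := fun σ => val (loc' L q (Additive.ofMul y)).toMul q' (τ * σ))
        fun σ _ => val_locIdl_of_ne q y hne _]
    simp only [Units.val_one, OneMemClass.coe_one]

omit [NeZero n] in
/-- The character at an idele supported at `q`. -/
theorem psiC_loc (z : ℤ_[(a.q : ℕ)]ˣ) (zB : (E (⊥ : IntermediateField ℚ QBar) a.q)ˣ)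
    (hz : ((zB : E (⊥ : IntermediateField ℚ QBar) a.q) : Ω a.q) =
      algebraMap ℚ_[(a.q : ℕ)] (Ω a.q) ((z : ℤ_[(a.q : ℕ)]) : ℚ_[(a.q : ℕ)])) :
    psiC a hn (proj _ (loc' (⊥ : IntermediateField ℚ QBar) a.q (Additive.ofMul zB))) =
      Multiplicative.toAdd (a.log (Units.map PadicInt.toZMod.toMonoidHom z)) := by
  rw [psiC_proj]
  set f := (loc' (⊥ : IntermediateField ℚ QBar) a.q (Additive.ofMul zB)).toMul with hf
  have hv : val f a.q 1 = zB := by
    have := val_locIdl_self (L := (⊥ : IntermediateField ℚ QBar)) a.q zB 1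
    rw [map_one, one_smul] at this
    exact this
  have hvq : ((botVal a.q f : ℚ_[(a.q : ℕ)]ˣ) : ℚ_[(a.q : ℕ)]) =
      ((z : ℤ_[(a.q : ℕ)]) : ℚ_[(a.q : ℕ)]) := by
    apply (algebraMap ℚ_[(a.q : ℕ)] (Ω a.q)).injective
    rw [botVal_spec a.q f 1, ← coe_val f a.q (map_one (res _)), hv, hz]
  have hunit : ∀ l, l ≠ a.q → ‖((botVal l f : ℚ_[(l : ℕ)]ˣ) : ℚ_[(l : ℕ)])‖ = 1 := fun l hl => by
    rw [norm_botVal l f 1, ← coe_val f l (map_one (res _)),
      show val f l 1 = 1 from val_locIdl_of_ne a.q _ hl 1]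
    simp
  rw [psi_of_units a hunit, resUnit_eq (j := 0) (u := z) (by rw [hvq, zpow_zero, one_mul])]

omit [NeZero n] in
/-- A rational unit as a unit of a local field. -/
theorem exists_algUnit {q : ℕ} [Fact q.Prime] (T : IntermediateField ℚ_[q] (PadicAlgCl q))
    [FiniteDimensional ℚ_[q] T] (z : ℤ_[q]ˣ) :
    ∃ w : unitGroup T, (((w : Tˣ) : T) : PadicAlgCl q) =
      algebraMap ℚ_[q] (PadicAlgCl q) ((z : ℤ_[q]) : ℚ_[q]) ∧
        ∀ s : T ≃ₐ[ℚ_[q]] T, s • (w : Tˣ) = (w : Tˣ) := by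
  refine ⟨⟨Units.map (algebraMap ℚ_[q] T).toMonoidHom
    (Units.map PadicInt.Coe.ringHom.toMonoidHom z),
    (mem_unitGroup _).2 ?_⟩, rfl, fun s => Units.ext (s.commutes _)⟩
  show ‖algebraMap ℚ_[q] T ((z : ℤ_[q]) : ℚ_[q])‖ = 1
  rw [norm_algebraMap', PadicInt.padic_norm_e_of_padicInt]
  exact PadicInt.isUnit_iff.1 z.isUnit

omit [NeZero n] in
/-- In an unramified field every fixed unit is a norm. -/
theorem exists_prod_eq {q : ℕ} [Fact q.Prime] (T : IntermediateField ℚ_[q] (PadicAlgCl q))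
    [FiniteDimensional ℚ_[q] T] [Normal ℚ_[q] T] (hT : inertia T = ⊥) (w : unitGroup T)
    (hw : ∀ s : T ≃ₐ[ℚ_[q]] T, s • (w : Tˣ) = (w : Tˣ)) :
    ∃ y : Tˣ, (∏ t : T ≃ₐ[ℚ_[q]] T, ((t • y : Tˣ) : T)) = ((w : Tˣ) : T) := by
  classical
  obtain ⟨y, hy⟩ := normSurj_unitGroup (⊤ : Subgroup (T ≃ₐ[ℚ_[q]] T)) (by rw [hT, inf_bot_eq])
    (Additive.ofMul w) fun s => Additive.toMul.injective (Subtype.ext (hw s))
  refine ⟨((y.toMul : unitGroup T) : Tˣ), ?_⟩
  have hy' := congrArg
    (fun v : Additive (unitGroup T) => (((v.toMul : unitGroup T) : Tˣ) : T)) hy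
  simp only [normSum, toMul_sum, toMul_ofMul, SubmonoidClass.coe_finsetProd, Units.coe_prod] at hy'
  rw [← hy']
  exact (Fintype.prod_equiv Subgroup.topEquiv.toEquiv _ _ fun t => rfl).symm

omit [NeZero n] in
/-- A class of `L` whose norm to `ℚ` has character one, if `q` is unramified in `L`. -/
theorem exists_psiC_eq_one (L : IntermediateField ℚ QBar) [FiniteDimensional ℚ L] [Normal ℚ L]
    (hq : inertia (E L a.q) = ⊥) :
    ∃ (c : C L) (t : C (⊥ : IntermediateField ℚ QBar)),
      inclC bot_le t = ∑ σ : L ≃ₐ[ℚ] L, σ • c ∧ psiC a hn t = 1 := by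
  obtain ⟨z, hz⟩ := exists_unit_log_one a
  obtain ⟨wT, hwT, hwfix⟩ := exists_algUnit (E L a.q) z
  obtain ⟨wB, hwB, -⟩ := exists_algUnit (E (⊥ : IntermediateField ℚ QBar) a.q) z
  obtain ⟨y, hy⟩ := exists_prod_eq (E L a.q) hq wT hwfix
  refine ⟨proj L (loc' L a.q (Additive.ofMul y)),
    proj _ (loc' _ a.q (Additive.ofMul (wB : (E (⊥ : IntermediateField ℚ QBar) a.q)ˣ))), ?_,
    (psiC_loc a hn z _ hwB).trans hz⟩
  rw [inclC_proj, ← sum_smul_loc L a.q y _ (by rw [hy, hwT, hwB]), map_sum]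
  simp only [proj_smul]

end Psi

/-! ### Comparison with the auxiliary extension -/

/-- Restriction to the bottom field is trivial. -/
private theorem levelRes_bot_eq_one {K : IntermediateField ℚ QBar}
    [Normal ℚ K] (h : ⊥ ≤ K) (σ : K ≃ₐ[ℚ] K) : levelRes h σ = 1 :=
  AlgEquiv.ext fun x => by
    obtain ⟨r, hr⟩ := IntermediateField.mem_bot.1 x.2
    rw [show x = algebraMap ℚ _ r from Subtype.ext hr.symm, AlgEquiv.commutes, AlgEquiv.one_apply]

/-- If a class becomes the norm of `w` in a larger level, then its full trace becomes the full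
trace of `w`. -/
private theorem inclC_sum_smul {K M : IntermediateField ℚ QBar} [FiniteDimensional ℚ K]
    [Normal ℚ K] [FiniteDimensional ℚ M] [Normal ℚ M] (h : K ≤ M) [Fintype (levelRes h).ker]
    {c : C K} {w : C M} (hw : inclC h c = normSum (levelRes h).ker (C M) w) :
    inclC h (∑ σ : K ≃ₐ[ℚ] K, σ • c) = ∑ g : M ≃ₐ[ℚ] M, g • w := by
  classical
  let s := Function.surjInv (levelRes_surjective h)
  rw [map_sum, sum_fiber (levelRes h) s (Function.surjInv_eq (levelRes_surjective h))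
    fun g => g • w]
  refine Finset.sum_congr rfl fun σ _ => ?_
  rw [← Function.surjInv_eq (levelRes_surjective h) σ, ← smul_inclC, hw, normSum, Finset.smul_sum]
  simp only [Subgroup.smul_def, smul_smul, Function.surjInv_eq (levelRes_surjective h)]
  rfl

/-- A kernel on which a character to `ℤ/n` is injective and takes the value `1` at `ν` is cyclic
of order `n`, generated by `ν`. -/
private theorem ker_eq_zpowers {G H : Type*} [Group G] [Group H] {n : ℕ} [NeZero n]
    (π : G →* H) (χ : G →* Multiplicative (ZMod n)) (hinj : ∀ σ ∈ π.ker, χ σ = 1 → σ = 1) {ν : G}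
    (hν : ν ∈ π.ker) (hνc : χ ν = Multiplicative.ofAdd 1) :
    Subgroup.zpowers ν = π.ker ∧ orderOf ν = n := by
  refine ⟨le_antisymm (Subgroup.zpowers_le.2 hν) fun σ hσ => ?_, ?_⟩
  · have hm := inv_pow_chiVal_mul_mem_ker hνc σ
    have e := hinj _ (mul_mem (inv_mem (pow_mem hν _)) hσ) hm
    rw [inv_mul_eq_one] at e
    exact e ▸ Subgroup.npow_mem_zpowers ν _
  · refine Nat.dvd_antisymm (orderOf_dvd_of_pow_eq_one
      (hinj _ (pow_mem hν n) (pow_mem_ker hνc))) ?_
    have h3 := orderOf_map_dvd χ ν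
    rwa [hνc, orderOf_ofAdd_eq_addOrderOf, ZMod.addOrderOf_one] at h3

/-- A surjection onto `ℤ/n` factoring through `Fin n` separates the values in `Fin n`. -/
private theorem eq_of_factor {α : Type*} {n : ℕ} [NeZero n] (J : α → Fin n) (Ψ : α → ZMod n)
    (h : ∀ c c', J c = J c' → Ψ c = Ψ c') (hs : Function.Surjective Ψ) {c c' : α}
    (he : Ψ c = Ψ c') : J c = J c' := by
  classical
  let φ : Fin n → ZMod n := fun j => if h : ∃ c, J c = j then Ψ h.choose else 0
  have hφ : ∀ c, φ (J c) = Ψ c := fun c => by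
    have h' : ∃ c', J c' = J c := ⟨c, rfl⟩
    simp only [φ, dif_pos h']
    exact h _ _ h'.choose_spec
  have hφinj : Function.Injective φ := ((Fintype.bijective_iff_surjective_and_card φ).2
    ⟨fun z => ⟨J (hs z).choose, by rw [hφ, (hs z).choose_spec]⟩, by simp⟩).1
  exact hφinj (by rw [hφ, hφ, he])

variable (L : IntermediateField ℚ QBar) [FiniteDimensional ℚ L] [Normal ℚ L]
  {p : ℕ} [hp : Fact p.Prime]

/-- The class of `t₁` in `M` is a norm from the kernel of restriction to `L`. -/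
private theorem exists_normSum_eq {k : ℕ} (a : Aux (p ^ k))
    (hodd : Odd (p ^ k)) {M : IntermediateField ℚ QBar} [FiniteDimensional ℚ M] [Normal ℚ M]
    (h1 : L ≤ M) (h2 : a.fixedChi ≤ M) [Fintype (levelRes h1).ker]
    (hA2 : CFT.StepAxioms p (M ≃ₐ[ℚ] M) (C M)) {ν : M ≃ₐ[ℚ] M}
    (hgen : Subgroup.zpowers ν = (levelRes h1).ker) (hord : orderOf ν = p ^ k)
    (hndvd : p ^ k ∣ Nat.card (L ≃ₐ[ℚ] L)) {c₁ : C L} {t₁ : C (⊥ : IntermediateField ℚ QBar)}
    (ht₁ : inclC bot_le t₁ = ∑ σ : L ≃ₐ[ℚ] L, σ • c₁) (hψ₁ : psiC a hodd t₁ = 1) :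
    ∃ w, normSum (levelRes h1).ker (C M) w = inclC (bot_le.trans h1) t₁ := by
  classical
  have hν : ν ∈ (levelRes h1).ker := hgen ▸ Subgroup.mem_zpowers ν
  -- the transfer of classes of `L`
  have hdesc : ∀ c : C L, ∃ t : C (⊥ : IntermediateField ℚ QBar),
      inclC (bot_le : ⊥ ≤ L) t = ∑ σ : L ≃ₐ[ℚ] L, σ • c := fun c =>
    exists_inclC_eq (K := ⊥) bot_le fun σ _ => by
      rw [Finset.smul_sum]
      exact Fintype.sum_equiv (Equiv.mulLeft σ) _ _ fun τ => (mul_smul σ τ c).symm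
  choose tr htr using hdesc
  have htr_sub : ∀ c c', tr (c - c') = tr c - tr c' := fun c c' => inclC_injective bot_le (by
    rw [htr, map_sub, htr, htr]
    simp only [smul_sub, Finset.sum_sub_distrib])
  let Ψ : C L → ZMod (p ^ k) := fun c => psiC a hodd (tr c)
  have hkill : ∀ c : C L, ∀ w, inclC h1 c = normSum (levelRes h1).ker (C M) w → Ψ c = 0 :=
      fun c w hw => by
    obtain ⟨v, hv⟩ := exists_inclC_eq h2 (c := normSum (levelRes h2).ker (C M) w) fun σ hσ => by
      exact smul_normSum (⟨σ, hσ⟩ : (levelRes h2).ker) w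
    refine psiC_norm a hodd (tr c) v (inclC_injective h2 ?_)
    rw [Duality.inclC_inclC, ← Duality.inclC_inclC bot_le h1 (tr c), htr, inclC_sum_smul h1 hw,
      inclC_sum_smul h2 hv]
  -- the invariant classes modulo norms are counted by the character
  obtain ⟨R, hR⟩ := exists_reps_cyclic hA2 k ν hord
  have hJ : ∀ c : C L, ∃ j : Fin (p ^ k), ∃ w,
      inclC h1 c = R j + normSum (levelRes h1).ker (C M) w := fun c => by
    obtain ⟨j, w, e⟩ := hR (inclC h1 c) (by
      rw [smul_inclC, MonoidHom.mem_ker.1 hν, one_smul])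
    refine ⟨j, w, e.trans (congrArg (R j + ·) ?_)⟩
    have e1 := sum_range_orderOf_smul ν (isOfFinOrder_of_finite ν) w
    rw [hord] at e1
    rw [← e1]
    refine Fintype.sum_equiv (MulEquiv.subgroupCongr hgen).toEquiv _ _ fun m => ?_
    rfl
  choose J W hJW using hJ
  have hΨJ : ∀ c c', J c = J c' → Ψ c = Ψ c' := fun c c' e => by
    have h0 := hkill (c - c') (W c - W c') (by
      rw [map_sub, hJW, hJW, e, normSum_sub]; abel)
    simp only [Ψ] at h0 ⊢
    rwa [htr_sub, map_sub, sub_eq_zero] at h0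
  have hΨ₁ : ∀ m : ℕ, Ψ (m • c₁) = m := fun m => by
    have e : tr (m • c₁) = m • t₁ := inclC_injective bot_le (by
      rw [htr, map_nsmul, ht₁, Finset.smul_sum]
      simp only [smul_comm m])
    show psiC a hodd (tr (m • c₁)) = m
    rw [e, map_nsmul, hψ₁, nsmul_one]
  have hΨsurj : Function.Surjective Ψ := fun z => ⟨z.val • c₁, by rw [hΨ₁, ZMod.natCast_zmod_val]⟩
  -- the element
  set x₁ : C L := inclC bot_le t₁
  have hΨx : Ψ x₁ = 0 := by
    have e : tr x₁ = Nat.card (L ≃ₐ[ℚ] L) • t₁ := inclC_injective bot_le (by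
      rw [htr, map_nsmul, Nat.card_eq_fintype_card, ← Finset.card_univ, ← Finset.sum_const]
      exact Finset.sum_congr rfl fun σ _ => by rw [smul_inclC, levelRes_bot_eq_one, one_smul])
    show psiC a hodd (tr x₁) = 0
    rw [e, map_nsmul, hψ₁, nsmul_one, ZMod.natCast_eq_zero_iff]
    exact hndvd
  have hJ0 : J x₁ = J 0 := eq_of_factor J Ψ hΨJ hΨsurj (by
    rw [hΨx]
    show 0 = psiC a hodd (tr 0)
    rw [show tr 0 = 0 from inclC_injective bot_le (by rw [htr, map_zero]; simp), map_zero])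
  exact ⟨W x₁ - W 0, by
    rw [normSum_sub]
    have e1 := hJW x₁
    have e2 := hJW 0
    rw [map_zero] at e2
    rw [hJ0, Duality.inclC_inclC] at e1
    rw [← sub_zero (inclC (bot_le.trans h1) t₁), e2, e1]
    abel⟩

/-- The carry class of a class with character one has order at least `n`. -/
private theorem dvd_of_isCoboundary_carryN {k : ℕ} (a : Aux (p ^ k))
    (hodd : Odd (p ^ k)) {M : IntermediateField ℚ QBar} [FiniteDimensional ℚ M] [Normal ℚ M]
    (h2 : a.fixedChi ≤ M) (hA2 : CFT.StepAxioms p (M ≃ₐ[ℚ] M) (C M)) {ν : M ≃ₐ[ℚ] M}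
    (hνc : a.galEquiv.toMonoidHom.comp (levelRes h2) ν = Multiplicative.ofAdd 1)
    {t₁ : C (⊥ : IntermediateField ℚ QBar)} (hψ₁ : psiC a hodd t₁ = 1) :
    ∀ z : ℤ, IsCoboundary₂ (carryN (a.galEquiv.toMonoidHom.comp (levelRes h2))
      (z • inclC (bot_le : ⊥ ≤ M) t₁)) → ((p ^ k : ℕ) : ℤ) ∣ z := by
  classical
  set χ := a.galEquiv.toMonoidHom.comp (levelRes h2)
  set x : C M := inclC (bot_le : ⊥ ≤ M) t₁
  intro z hz
  rcases Nat.lt_or_ge 1 (p ^ k) with hn1 | hn1
  swap
  · rw [show p ^ k = 1 from le_antisymm hn1 (NeZero.pos (p ^ k))]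
    exact one_dvd _
  obtain ⟨b, hb⟩ := hz
  -- Multiplied by the index `m` of a Sylow subgroup, `z x` is a norm from the fixed field of `χ`,
  obtain ⟨Q⟩ := (inferInstance : Nonempty (Sylow p χ.ker))
  set m := (Q : Subgroup χ.ker).index
  obtain ⟨w, hw, e⟩ := exists_eq_norm_of_carryN' hn1 hνc (x := m • (z • x)) (m • b)
    (fun g h => by
      have e : g • b h - b (g * h) + b g = ((chiVal χ g + chiVal χ h) / (p ^ k)) • z • x := hb g h
      simp only [Pi.smul_apply, smul_comm g m]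
      rw [← smul_sub, ← smul_add, e, smul_comm])
    fun hc => by
      have hc' : IsCocycle₁ fun k : χ.ker => b k := fun g h => by
        have e := hb (g : M ≃ₐ[ℚ] M) h
        simp only [carryN, chiVal_of_mem_ker χ g.2, chiVal_of_mem_ker χ h.2, Nat.add_zero,
          Nat.zero_div, zero_smul, sub_add_eq_add_sub, sub_eq_zero] at e
        exact e.symm
      exact index_nsmul_isCoboundary₁ (Q : Subgroup χ.ker) _ hc'
        ((hA2.h1Zero _ (Q.isPGroup'.map χ.ker.subtype)).of_equiv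
          ((Q : Subgroup χ.ker).equivMapOfInjective χ.ker.subtype Subtype.coe_injective)
          (fun _ _ => rfl) _ fun g h => hc' (g : χ.ker) h)
  obtain ⟨v, rfl⟩ := exists_inclC_eq h2 (c := w) fun σ hσ => hw σ (by
    rw [MonoidHom.mem_ker]
    show a.galEquiv (levelRes h2 σ) = 1
    rw [MonoidHom.mem_ker.1 hσ, map_one])
  -- which `psi` kills; so `n ∣ m z` and `m` is prime to `p`.
  have h0 : psiC a hodd (m • z • t₁) = 0 := psiC_norm a hodd _ v (inclC_injective h2 (by
    rw [Duality.inclC_inclC, map_nsmul, map_zsmul, map_sum]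
    refine e.trans ?_
    refine (Finset.sum_bij' (fun i _ => levelRes h2 (ν ^ i))
      (fun τ _ => (Multiplicative.toAdd (a.galEquiv τ)).val) (fun i _ => Finset.mem_univ _)
      (fun τ _ => Finset.mem_range.2 (ZMod.val_lt _)) (fun i hi => ?_) (fun τ _ => ?_)
      fun i _ => ?_)
    · exact chiVal_pow hνc (Finset.mem_range.1 hi)
    · refine a.galEquiv.injective ?_
      show χ (ν ^ _) = _
      rw [map_pow, hνc, ← ofAdd_nsmul, nsmul_one, ZMod.natCast_zmod_val, ofAdd_toAdd]
    · rw [smul_inclC]))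
  rw [map_nsmul, map_zsmul, hψ₁, zsmul_one, nsmul_eq_mul, ← Int.cast_natCast, ← Int.cast_mul,
    ZMod.intCast_zmod_eq_zero_iff_dvd] at h0
  exact (Int.isCoprime_iff_nat_coprime.mpr (by
    rw [Int.natAbs_natCast, Int.natAbs_natCast]
    exact Nat.Coprime.pow_left _
      (hp.out.coprime_iff_not_dvd.mpr Q.not_dvd_index))).dvd_of_dvd_mul_left h0

/-! ### The class -/

/-- The fundamental class. -/
theorem exists_fundamental (hp2 : p ≠ 2) {ζ : L} (hζ : IsPrimitiveRoot ζ p) :
    ∃ u : NormCocycle (L ≃ₐ[ℚ] L) (C L), IsClassFormation p u := by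
  classical
  have hA := stepAxioms L hp2 hζ
  obtain ⟨P₀⟩ := (inferInstance : Nonempty (Sylow p (L ≃ₐ[ℚ] L)))
  obtain ⟨k, hk⟩ := IsPGroup.iff_card.mp P₀.isPGroup'
  set n := p ^ k
  have hodd : Odd n := (hp.out.odd_of_ne_two hp2).pow
  have hnP : ∀ P : Sylow p (L ≃ₐ[ℚ] L), Nat.card (P : Subgroup (L ≃ₐ[ℚ] L)) = n := fun P => by
    rw [P.card_eq_multiplicity, ← P₀.card_eq_multiplicity, hk]
  have hndvd : n ∣ Nat.card (L ≃ₐ[ℚ] L) := hk ▸ Subgroup.card_subgroup_dvd_card _
  -- Adjoin an auxiliary cyclotomic field, linearly disjoint from `L`, with character `χ`,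
  obtain ⟨T, hT⟩ := exists_finset_unramified (L := L)
  obtain ⟨a, ha⟩ := exists_aux n T
  have hq := hT _ ha
  set L2 : IntermediateField ℚ QBar := L ⊔ a.fixedChi
  have : Normal ℚ a.fixedChi := (a.isGalois_fixedChi).to_normal
  have : Normal ℚ L2 := @IntermediateField.normal_sup ℚ QBar _ _ _ L a.fixedChi ‹Normal ℚ L› ‹Normal
    ℚ a.fixedChi›
  have h1 : L ≤ L2 := le_sup_left
  have h2 : a.fixedChi ≤ L2 := le_sup_right
  have hζ2 : IsPrimitiveRoot (IntermediateField.inclusion h1 ζ) p :=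
    hζ.map_of_injective (IntermediateField.inclusion h1).injective
  have hA2 := stepAxioms L2 hp2 hζ2
  set π := levelRes h1
  set χ : (L2 ≃ₐ[ℚ] L2) →* Multiplicative (ZMod n) := a.galEquiv.toMonoidHom.comp (levelRes h2)
  have hchi : ∀ g : GQ, χ (res L2 g) = a.chi g := fun g => by
    show a.galEquiv (levelRes h2 (res L2 g)) = _
    rw [levelRes_res, a.galEquiv_res]
  -- so that the kernel to `L` is cyclic, generated by an inertia element of character one.
  have hinj : ∀ σ ∈ π.ker, χ σ = 1 → σ = 1 := fun σ hσ hσ' => by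
    obtain ⟨g, rfl⟩ := AlgEquiv.restrictNormalHom_surjective (K₁ := L2) QBar σ
    rw [hchi, ← MonoidHom.mem_ker, ← a.fixingSubgroup_fixedChi] at hσ'
    rw [MonoidHom.mem_ker, levelRes_res, res_eq_one_iff] at hσ
    rw [res_eq_one_iff]
    exact (IntermediateField.fixingSubgroup_sup (K := L) (L := a.fixedChi)).ge ⟨hσ, hσ'⟩
  obtain ⟨g₁, hg₁, hg₁c⟩ := a.exists_inertia (Multiplicative.ofAdd 1)
  set ν := res L2 g₁
  have hν : ν ∈ π.ker := by
    rw [MonoidHom.mem_ker, levelRes_res, res_eq_one_iff, IntermediateField.mem_fixingSubgroup_iff]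
    exact fun x hx => (inertia_eq_bot_iff (a.q : ℕ) L).1 hq g₁ hg₁ ⟨x, hx⟩
  have hνc : χ ν = Multiplicative.ofAdd 1 := by rw [hchi, hg₁c]
  obtain ⟨hgen, hord⟩ := ker_eq_zpowers π χ hinj hν hνc
  have hπp : IsPGroup p π.ker := IsPGroup.of_card (n := k) (by
    rw [← hgen, Nat.card_zpowers, hord])
  -- A class with `psi = 1` is invariant, a norm from that kernel, and of order `n`:
  obtain ⟨c₁, t₁, ht₁, hψ₁⟩ := exists_psiC_eq_one a hodd L hq
  set x : C L2 := inclC (bot_le.trans h1) t₁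
  have hxN : ∃ w, normSum π.ker (C L2) w = x :=
    exists_normSum_eq L a hodd h1 h2 hA2 hgen hord hndvd ht₁ hψ₁
  have hx : ∀ g : L2 ≃ₐ[ℚ] L2, g • x = x := fun g => by
    rw [smul_inclC, levelRes_bot_eq_one, one_smul]
  have hordx : ∀ z : ℤ, IsCoboundary₂ (carryN χ (z • x)) → (n : ℤ) ∣ z :=
    dvd_of_isCoboundary_carryN a hodd h2 hA2 hνc hψ₁
  -- its carry class descends to the fundamental class of `L`.
  obtain ⟨u, hu⟩ := exists_normCocycle_of_carry π (levelRes_surjective h1) (inclC h1)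
    (inclC_injective h1) (fun g y => smul_inclC h1 g y)
    (fun c hc => exists_inclC_eq h1 fun σ hσ => hc ⟨σ, hσ⟩) hnP χ
    (hA2.h1Zero _ hπp) hx hxN hordx
  exact ⟨u, hA.isClassFormation u hu⟩

end Fermat.Agent.CFT.Idele
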