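import Mathlib.GroupTheory.Index
import Mathlib.Tactic.LinearCombination
import Mathlib.Tactic.Ring

/-!
# Herbrand quotients

For endomorphisms `d`, `N` of a commutative group with `d N = N d = 1`, multiplicativity of
`[ker d : im N] / [ker N : im d]` along a stable subgroup, without forming quotients.
-/

set_option autoImplicit false

namespace Fermat.Agent.CFT.Idele

open Subgroup

variable {A : Type*} [CommGroup A]

/-- `[ker d : im N]`. -/
noncomputable def ind0 (d N : A →* A) : ℕ := N.range.relIndex d.ker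

/-- `[ker d : im N]` for a stable subgroup `B`. -/
noncomputable def ind0Sub (d N : A →* A) (B : Subgroup A) : ℕ :=
  (B.map N).relIndex (B ⊓ d.ker)

/-- `[ker d : im N]` for the quotient by a stable subgroup `B`. -/
noncomputable def ind0Quot (d N : A →* A) (B : Subgroup A) : ℕ :=
  (N.range ⊔ B).relIndex (B.comap d)

theorem map_le_range_inf (f : A →* A) {B : Subgroup A} (hB : B.map f ≤ B) :
    B.map f ≤ f.range ⊓ B :=
  le_inf (by rintro _ ⟨x, -, rfl⟩; exact ⟨x, rfl⟩) hB

theorem ind0Quot_mul_ind0Sub (d N : A →* A) (hdN : ∀ x, d (N x) = 1) (B : Subgroup A)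
    (hdB : B.map d ≤ B) (hNB : B.map N ≤ B) :
    ind0Quot d N B * ind0Sub d N B =
      (B.map d).relIndex (d.range ⊓ B) * (B.map N).relIndex (N.range ⊓ B) * ind0 d N := by
  have hNk : N.range ≤ d.ker := by rintro _ ⟨x, rfl⟩; exact hdN x
  have hBc : B ≤ B.comap d := fun x hx => hdB ⟨x, hx, rfl⟩
  have hkc : d.ker ≤ B.comap d := fun x hx => by
    show d x ∈ B
    rw [MonoidHom.mem_ker.1 hx]; exact one_mem B
  -- the quotient index
  have e1 : (d.ker ⊔ B).relIndex (B.comap d) = (B.map d).relIndex (d.range ⊓ B) := by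
    have h := relIndex_map_map d (d.ker ⊔ B) (B.comap d)
    rw [Subgroup.map_comap_eq, sup_eq_left.2 hkc,
      sup_eq_left.2 (le_sup_left : d.ker ≤ d.ker ⊔ B), Subgroup.map_sup,
      (Subgroup.map_eq_bot_iff d.ker).2 le_rfl, bot_sup_eq] at h
    exact h.symm
  have e2 : (N.range ⊔ B).relIndex (d.ker ⊔ B) = (N.range ⊔ B ⊓ d.ker).relIndex d.ker := by
    have h' : d.ker ⊔ B = d.ker ⊔ (N.range ⊔ B) := by
      rw [← sup_assoc, sup_eq_left.2 hNk]
    rw [h', relIndex_sup_right, ← inf_relIndex_right]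
    congr 1
    refine le_antisymm ?_ (sup_le (le_inf le_sup_left hNk) (le_inf (inf_le_left.trans le_sup_right)
      inf_le_right))
    rintro x ⟨hx, hxk⟩
    obtain ⟨a, ha, b, hb, rfl⟩ := Subgroup.mem_sup.1 hx
    exact mul_mem_sup ha ⟨hb, (Subgroup.mul_mem_cancel_left _ (hNk ha)).1 hxk⟩
  have hQ : ind0Quot d N B =
      (N.range ⊔ B ⊓ d.ker).relIndex d.ker * (B.map d).relIndex (d.range ⊓ B) := by
    rw [ind0Quot, ← e1, ← e2]
    exact (relIndex_mul_relIndex _ _ _ (sup_le (hNk.trans le_sup_left) le_sup_right)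
      (sup_le hkc hBc)).symm
  -- the subgroup index
  have hS : ind0Sub d N B =
      (B.map N).relIndex (N.range ⊓ B) * N.range.relIndex (B ⊓ d.ker) := by
    rw [ind0Sub, ← inf_relIndex_right N.range (B ⊓ d.ker),
      show N.range ⊓ (B ⊓ d.ker) = N.range ⊓ B by
        rw [← inf_assoc, inf_eq_left]; exact inf_le_left.trans hNk]
    exact (relIndex_mul_relIndex _ _ _ (map_le_range_inf N hNB)
      (le_inf inf_le_right (inf_le_left.trans hNk))).symm
  -- the index for `A`
  have hA : ind0 d N =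
      N.range.relIndex (B ⊓ d.ker) * (N.range ⊔ B ⊓ d.ker).relIndex d.ker := by
    rw [ind0, ← relIndex_sup_left (K := N.range) (H := B ⊓ d.ker)]
    exact (relIndex_mul_relIndex _ _ _ le_sup_left (sup_le hNk inf_le_right)).symm
  rw [hQ, hS, hA]
  ring

/-- Multiplicativity of the Herbrand quotient, in cross multiplied form. -/
theorem herbrand_mul (d N : A →* A) (hdN : ∀ x, d (N x) = 1) (hNd : ∀ x, N (d x) = 1)
    (B : Subgroup A) (hdB : B.map d ≤ B) (hNB : B.map N ≤ B) :
    ind0Quot d N B * ind0Sub d N B * ind0 N d = ind0Quot N d B * ind0Sub N d B * ind0 d N := by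
  rw [ind0Quot_mul_ind0Sub d N hdN B hdB hNB, ind0Quot_mul_ind0Sub N d hNd B hNB hdB]
  ring

theorem ind0_ne_zero_of (d N : A →* A) (hdN : ∀ x, d (N x) = 1) (B : Subgroup A)
    (hdB : B.map d ≤ B) (hNB : B.map N ≤ B) (hQ : ind0Quot d N B ≠ 0)
    (hS : ind0Sub d N B ≠ 0) : ind0 d N ≠ 0 :=
  fun h => mul_ne_zero hQ hS (by rw [ind0Quot_mul_ind0Sub d N hdN B hdB hNB, h, mul_zero])

theorem ind0Quot_ne_zero_of_index {d N : A →* A} {B : Subgroup A} (hB : B.index ≠ 0) :
    ind0Quot d N B ≠ 0 := fun h => by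
  have h' : B.relIndex (B.comap d) = 0 := relIndex_eq_zero_of_le_left le_sup_right h
  exact hB (index_eq_zero_of_relIndex_eq_zero h')

/-- A quotient by a stable subgroup of finite index has trivial Herbrand quotient. -/
theorem ind0Quot_comm_of_index (d N : A →* A) (hdN : ∀ x, d (N x) = 1) (hNd : ∀ x, N (d x) = 1)
    (B : Subgroup A) (hdB : B.map d ≤ B) (hNB : B.map N ≤ B) (hB : B.index ≠ 0) :
    ind0Quot d N B = ind0Quot N d B := by
  have key : ∀ (f g : A →* A), (∀ x, f (g x) = 1) → B.map f ≤ B → B.map g ≤ B →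
      B.index = ind0Quot f g B * B.relIndex (g.range ⊔ B) * (B.comap f).index := by
    intro f g hfg hf hg
    have hle : g.range ⊔ B ≤ B.comap f := by
      refine sup_le ?_ (fun x hx => hf ⟨x, hx, rfl⟩)
      rintro _ ⟨x, rfl⟩
      show f (g x) ∈ B
      rw [hfg]; exact one_mem B
    rw [ind0Quot, mul_comm ((g.range ⊔ B).relIndex _),
      relIndex_mul_relIndex _ _ _ le_sup_right hle,
      relIndex_mul_index (show B ≤ B.comap f from fun x hx => hf ⟨x, hx, rfl⟩)]
  have himg : ∀ f : A →* A, (B.comap f).index = B.relIndex (f.range ⊔ B) := fun f => by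
    rw [relIndex_sup_right, ← index_comap]
  have h1 := key d N hdN hdB hNB
  have h2 := key N d hNd hNB hdB
  rw [himg] at h1 h2
  have hne : B.relIndex (N.range ⊔ B) * B.relIndex (d.range ⊔ B) ≠ 0 := fun h =>
    hB (by rw [h1, mul_assoc, h, mul_zero])
  apply mul_right_cancel₀ hne
  linear_combination -h1 + h2

/-- A stable subgroup of finite index has the same Herbrand quotient. -/
theorem herbrand_of_index (d N : A →* A) (hdN : ∀ x, d (N x) = 1) (hNd : ∀ x, N (d x) = 1)
    (B : Subgroup A) (hdB : B.map d ≤ B) (hNB : B.map N ≤ B) (hB : B.index ≠ 0) :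
    ind0Sub d N B * ind0 N d = ind0Sub N d B * ind0 d N := by
  have h := herbrand_mul d N hdN hNd B hdB hNB
  rw [ind0Quot_comm_of_index d N hdN hNd B hdB hNB hB] at h
  apply mul_left_cancel₀ (ind0Quot_ne_zero_of_index (d := N) (N := d) hB)
  linear_combination h

end Fermat.Agent.CFT.Idele
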