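import Fermat.Agent.Arith.Chebotarev.Crossing
import Fermat.Agent.CFT.Idele.Decomp
import Fermat.Agent.CFT.Idele.Kummer
import Fermat.Agent.CFT.Idele.Values

/-!
# Degree one places realising a Kummer functional
-/

set_option autoImplicit false

noncomputable section

namespace Fermat.Agent.CFT.Idele

open Fermat.Agent.Arith IntermediateField

theorem restrict_eq_self_of_zpowers {L : IntermediateField ℚ QBar} [Normal ℚ L] {a b : GQ}
    (h : AlgEquiv.restrictNormalHom L a ∈ Subgroup.zpowers (AlgEquiv.restrictNormalHom L b))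
    {x : QBar} (hx : x ∈ L) (hb : b x = x) : a x = x := by
  have hmem : AlgEquiv.restrictNormalHom L b ∈ MulAction.stabilizer (L ≃ₐ[ℚ] L) (⟨x, hx⟩ : L) :=
    Subtype.ext ((AlgEquiv.restrictNormal_commutes b L ⟨x, hx⟩).trans hb)
  have ha := congrArg Subtype.val ((Subgroup.zpowers_le.mpr hmem) h)
  exact (AlgEquiv.restrictNormal_commutes a L ⟨x, hx⟩).symm.trans ha

/-- An element of `ℚ̄_q` fixed by every automorphism is `q`-adic. -/
theorem mem_bot_of_forall_fixed {q : Nat.Primes} {y : Ω q}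
    (h : ∀ τ : Ω q ≃ₐ[ℚ_[(q : ℕ)]] Ω q, τ y = y) :
    y ∈ (⊥ : IntermediateField ℚ_[(q : ℕ)] (Ω q)) := by
  rw [← InfiniteGalois.fixedField_fixingSubgroup (⊥ : IntermediateField ℚ_[(q : ℕ)] (Ω q)),
    IntermediateField.mem_fixedField_iff]
  exact fun τ _ => h τ

variable {p : ℕ} [hp : Fact p.Prime] {ζ : QBar} {K : IntermediateField ℚ QBar}
  [FiniteDimensional ℚ K] {U : Subgroup QBarˣ}

/-- There is a Galois number field containing `K` and a `p`-th root of every element of `U`, as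
`U / U ^ p` is finite. -/
private theorem exists_galois_roots (hζ : IsPrimitiveRoot ζ p) (hζK : ζ ∈ K) (hU : U ≤ unitsOf K)
    [Finite (ModP p U)] :
    ∃ L : IntermediateField ℚ QBar, FiniteDimensional ℚ L ∧ Normal ℚ L ∧ K ≤ L ∧
      ∀ x : U, rootP p ((x : QBarˣ) : QBar) ∈ L := by
  choose rep hrep using modClass_surjective (p := p) (U := U)
  let roots : Set QBar := Set.range fun v => rootP p ((rep v : QBarˣ) : QBar)
  have : Finite roots := (Set.finite_range _).to_subtype
  have : FiniteDimensional ℚ (IntermediateField.adjoin ℚ roots) :=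
    IntermediateField.finiteDimensional_adjoin fun x _ => Algebra.IsIntegral.isIntegral x
  let Kroots : IntermediateField ℚ QBar := K ⊔ IntermediateField.adjoin ℚ roots
  let L : IntermediateField ℚ QBar := IntermediateField.normalClosure ℚ Kroots QBar
  have : Normal ℚ L := normalClosure.normal ℚ Kroots QBar
  have hKL : K ≤ L := le_sup_left.trans Kroots.le_normalClosure
  refine ⟨L, inferInstance, inferInstance, hKL, ?_⟩
  intro x
  obtain ⟨y, hy⟩ : ∃ y : U, y ^ p = (rep (modClass p x))⁻¹ * x := by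
    rw [← modClass_eq_zero_iff, modClass_mul,
      show modClass p (rep (modClass p x))⁻¹ = -modClass p (rep (modClass p x)) from rfl, hrep,
      neg_add_cancel]
  set r : QBar := rootP p ((rep (modClass p x) : QBarˣ) : QBar)
  have hval : ((x : QBarˣ) : QBar) = (r * ((y : QBarˣ) : QBar)) ^ p := by
    rw [mul_pow, rootP_pow, ← Units.val_pow_eq_pow_val, ← Units.val_mul, ← SubmonoidClass.coe_pow,
      hy, Subgroup.coe_mul, InvMemClass.coe_inv, mul_inv_cancel_left]
  obtain ⟨i, -, hi⟩ := exists_eq_zeta_pow_mul hζ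
    (mul_ne_zero (rootP_ne_zero (Units.ne_zero _)) (Units.ne_zero _))
    ((rootP_pow ((x : QBarˣ) : QBar)).trans hval)
  rw [hi]
  exact mul_mem (pow_mem (hKL hζK) i) (mul_mem ((le_sup_right.trans Kroots.le_normalClosure :
    IntermediateField.adjoin ℚ roots ≤ L) (IntermediateField.subset_adjoin _ _ ⟨_, rfl⟩))
    (hKL (hU y.2)))

/-- An automorphism of `ℚ̄_q` fixes the image of `g β` iff the automorphism it induces through
`g` fixes `β`. -/
private theorem loc_fixes_emb_iff {q : Nat.Primes} (τ : Ω q ≃ₐ[ℚ_[(q : ℕ)]] Ω q) (g : GQ)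
    (β : QBar) : τ (emb q (g β)) = emb q (g β) ↔ (g⁻¹ * loc q τ * g) β = β := by
  rw [AlgEquiv.mul_apply, AlgEquiv.mul_apply, ← emb_loc]
  constructor
  · intro h
    rw [(emb q).toRingHom.injective h]
    exact g.symm_apply_apply β
  · intro h
    congr 1
    calc loc q τ (g β) = g ((g⁻¹ : GQ) (loc q τ (g β))) := (g.apply_symm_apply _).symm
      _ = g β := by rw [h]

omit [FiniteDimensional ℚ K] in
/-- With `ζ ∈ K`, if one `p`-th root lies in the local field then so does every other. -/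
private theorem emb_root_mem_fieldAt (hζ : IsPrimitiveRoot ζ p) (hζK : ζ ∈ K) {q : Nat.Primes}
    (g : GQ) {b β : QBar} (hb0 : b ≠ 0) {y : Ω q} (hy : y ∈ fieldAt q K g)
    (hyb : y ^ p = emb q (g b)) (hβb : β ^ p = b) : emb q (g β) ∈ fieldAt q K g := by
  have hy0 : y ≠ 0 := fun h0 => by
    rw [h0, zero_pow hp.out.ne_zero] at hyb
    exact hb0 ((map_eq_zero _).mp ((map_eq_zero _).mp hyb.symm))
  have hζ' : IsPrimitiveRoot (emb q (g ζ)) p :=
    (hζ.map_of_injective g.injective).map_of_injective (emb q).toRingHom.injective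
  obtain ⟨i, -, hi⟩ := hζ'.eq_pow_of_pow_eq_one (ξ := emb q (g β) / y)
    (by rw [div_pow, ← map_pow, ← map_pow, hβb, ← hyb, div_self (pow_ne_zero _ hy0)])
  rw [show emb q (g β) = emb q (g ζ) ^ i * y by rw [hi, div_mul_cancel₀ _ hy0]]
  exact mul_mem (pow_mem (emb_mem_fieldAt g hζK) i) hy

/-- For every functional `φ` on `U / U ^ p` there are degree one places, outside any finite set,
at which exactly the kernel of `φ` consists of local `p`-th powers. -/
theorem exists_prime_realising (hζ : IsPrimitiveRoot ζ p) (hζK : ζ ∈ K) (hU : U ≤ unitsOf K)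
    [Finite (ModP p U)] (hsat : ∀ x ∈ unitsOf K, x ^ p ∈ U → x ∈ U)
    (φ : Module.Dual (ZMod p) (ModP p U)) (S : Finset ℕ) :
    ∃ q : Nat.Primes, (q : ℕ) ∉ S ∧ ∃ g : GQ, fieldAt q K g = ⊥ ∧ ∀ x : U,
      ((∃ y ∈ fieldAt q K g, y ^ p = emb q (g ((x : QBarˣ) : QBar))) ↔ φ (modClass p x) = 0) := by
  classical
  obtain ⟨σ₀, hσ₀⟩ := exists_kumFun_eq hζ hζK hU hsat φ
  -- `L`: a Galois field with `K` and the `p`-th roots of the elements of `U`
  obtain ⟨L, hLfin, hLnorm, hKL, hroot⟩ := exists_galois_roots hζ hζK hU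
  have : IsGalois ℚ L := ⟨⟩
  have : NumberField L := ⟨⟩
  -- a prime `ℓ` whose Frobenius in `L` generates the subgroup of `σ₀`, which realises `φ`
  obtain ⟨B, hB⟩ := Density.exists_bound_good L
  obtain ⟨ℓ, hℓ, hℓS, A, hA, σ, hσ, hgen⟩ :=
    Density.exists_frobenius_zpowers_eq L (σ₀ : GQ) (S ∪ Finset.range (B + 1))
  rw [Finset.mem_union, not_or, Finset.mem_range, not_lt] at hℓS
  have : Fact ℓ.Prime := ⟨hℓ⟩
  obtain ⟨g, hg⟩ := exists_smul_eq hA (Local.padicPlace_liesOverPrime ℓ) hℓ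
  have hσ' : (padicPlace ℓ).IsFrobeniusAt (g * σ * g⁻¹) ℓ := hg ▸ isFrobeniusAt_conj hσ
  have hinert : ∀ t ∈ (padicPlace ℓ).inertiaSubgroupIn ℚ, ∀ x : L, t (x : QBar) = (x : QBar) :=
    fun t ht x => (Chebotarev.restrictNormalHom_eq_one_iff L).mp
      (Chebotarev.inertia_fixes_of_good L hℓ (hB ℓ hℓ (by omega))
        (Local.padicPlace_liesOverPrime ℓ) ht) x x.2
  -- so the decomposition group at `g` acts on `L` through powers of `σ₀`
  let q : Nat.Primes := ⟨ℓ, hℓ⟩
  have hdecσ₀ : ∀ τ : Ω q ≃ₐ[ℚ_[(q : ℕ)]] Ω q, AlgEquiv.restrictNormalHom L (g⁻¹ * loc q τ * g) ∈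
      Subgroup.zpowers (AlgEquiv.restrictNormalHom L (σ₀ : GQ)) := fun τ => by
    obtain ⟨i, hi⟩ := exists_pow_restrict_eq L hinert hσ' τ
    rw [← hgen, map_mul, map_mul, hi, ← map_pow, conj_pow, map_mul, map_mul, map_inv,
      show (AlgEquiv.restrictNormalHom L g)⁻¹ *
        (AlgEquiv.restrictNormalHom L g * AlgEquiv.restrictNormalHom L (σ ^ i) *
          (AlgEquiv.restrictNormalHom L g)⁻¹) * AlgEquiv.restrictNormalHom L g =
        AlgEquiv.restrictNormalHom L (σ ^ i) by group, map_pow]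
    exact Subgroup.npow_mem_zpowers _ i
  have hfixK : ∀ x ∈ K, (σ₀ : GQ) x = x := fun x hx =>
    (IntermediateField.mem_fixingSubgroup_iff _ _).mp σ₀.2 x hx
  refine ⟨q, hℓS.1, g, ?_, fun x => ?_⟩
  -- the place has degree one, since `σ₀` fixes `K`
  · refine eq_bot_iff.mpr fun y hy => mem_bot_of_forall_fixed fun τ => ?_
    have hτ : τ ∈ (fieldAt q K g).fixingSubgroup := by
      rw [fixes_fieldAt_iff, IntermediateField.mem_fixingSubgroup_iff]
      exact fun z hz' => restrict_eq_self_of_zpowers (hdecσ₀ τ) (hKL hz') (hfixK z hz')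
    exact (IntermediateField.mem_fixingSubgroup_iff _ _).mp hτ y hy
  -- `x` is a `p`-th power there iff `σ₀` fixes its `p`-th root
  set b : QBar := ((x : QBarˣ) : QBar) with hb
  set β : QBar := rootP p b with hβ
  have hb0 : b ≠ 0 := Units.ne_zero _
  rw [← hσ₀, kumFun_modClass, kum_eq_zero_iff hζ hζK σ₀.2 (hU x.2) hb0 (rootP_pow b)]
  constructor
  · rintro ⟨y, hy, hyb⟩
    have hy' : emb q (g β) ∈ fieldAt q K g := emb_root_mem_fieldAt hζ hζK g
      (β := β) hb0 hy hyb (rootP_pow b)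
    -- Frobenius comes from a local automorphism, which fixes the root; so `σ₀` does as well
    obtain ⟨s, hs⟩ := (Local.mem_range_toGlobal_iff ℓ L
      (AlgEquiv.restrictNormalHom L (g * σ * g⁻¹))).mpr fun z hz' => by
        have hstab := (isFrobeniusAt_iff_forall_mem.mp hσ').1
        rw [show ((AlgEquiv.restrictNormalHom L (g * σ * g⁻¹) z : L) : QBar) =
          (g * σ * g⁻¹) (z : QBar) from AlgEquiv.restrictNormal_commutes _ L z]
        exact map_mem_of_mem_decomposition hstab hz'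
    set τ : Ω q ≃ₐ[ℚ_[(q : ℕ)]] Ω q := s.liftNormal (PadicAlgCl ℓ)
    have hτσ : AlgEquiv.restrictNormalHom L (g⁻¹ * loc q τ * g) =
        AlgEquiv.restrictNormalHom L σ := by
      have e' : AlgEquiv.restrictNormalHom L (loc q τ) =
          AlgEquiv.restrictNormalHom L (g * σ * g⁻¹) := hs
      rw [map_mul, map_mul, e', map_mul, map_mul, map_inv]
      group
    have hτK : τ ∈ (fieldAt q K g).fixingSubgroup := by
      rw [fixes_fieldAt_iff, IntermediateField.mem_fixingSubgroup_iff]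
      exact fun z hz' => restrict_eq_self_of_zpowers (hdecσ₀ τ) (hKL hz') (hfixK z hz')
    have hτβ : (g⁻¹ * loc q τ * g) β = β := by
      rw [← loc_fixes_emb_iff]
      exact (IntermediateField.mem_fixingSubgroup_iff _ _).mp hτK _ hy'
    refine restrict_eq_self_of_zpowers ?_ (hroot x) hτβ
    rw [hτσ, hgen]
    exact Subgroup.mem_zpowers _
  · intro h
    refine ⟨emb q (g β), ?_, by rw [← map_pow, ← map_pow, hβ, rootP_pow]⟩
    have hbot : emb q (g β) ∈ (⊥ : IntermediateField ℚ_[(q : ℕ)] (Ω q)) :=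
      mem_bot_of_forall_fixed fun τ =>
        (loc_fixes_emb_iff τ g β).mpr (restrict_eq_self_of_zpowers (hdecσ₀ τ) (hroot x) h)
    exact (bot_le : (⊥ : IntermediateField ℚ_[(q : ℕ)] (Ω q)) ≤ fieldAt q K g) hbot

end Fermat.Agent.CFT.Idele
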