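import Fermat.Agent.CFT.Idele.KummerDual

/-!
# A local element whose idele is not a global norm

If `b ∈ K` is not a `p`-th power at the place `(q, r)`, some element of the completion gives an
idele outside `Kˣ` times the norms from `K(b ^ (1/p))`.

The main theorem is `exists_singleAt_notMem_normSub`.
-/

set_option autoImplicit false

noncomputable section

namespace Fermat.Agent.CFT.Idele

open Fermat.Agent.Arith IntermediateField Module

variable {p : ℕ} [hp : Fact p.Prime] {ζ : QBar} {K : IntermediateField ℚ QBar}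
  [FiniteDimensional ℚ K]

/-! ### Powers at the places -/

omit hp [FiniteDimensional ℚ K] in
/-- Membership in the completions along a place. -/
theorem apply_mem_fieldAt {q : Nat.Primes} (τ : Ω q ≃ₐ[ℚ_[(q : ℕ)]] Ω q) {g s : GQ}
    (hs : s ∈ K.fixingSubgroup) {y : Ω q} (hy : y ∈ fieldAt q K g) :
    τ y ∈ fieldAt q K (loc q τ * g * s) := by
  have h : (fieldAt q K g).map τ.toAlgHom ≤ fieldAt q K (loc q τ * g * s) := by
    rw [fieldAt, IntermediateField.adjoin_map, IntermediateField.adjoin_le_iff]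
    rintro _ ⟨_, ⟨x, hx, rfl⟩, rfl⟩
    have e : (loc q τ * g * s) x = loc q τ (g x) := by
      rw [AlgEquiv.mul_apply, AlgEquiv.mul_apply,
        (IntermediateField.mem_fixingSubgroup_iff _ _).1 hs x hx]
    show τ (emb q (g x)) ∈ _
    rw [← emb_loc, ← e]
    exact emb_mem_fieldAt _ hx
  exact h ⟨y, hy, rfl⟩

omit hp [FiniteDimensional ℚ K] in
/-- A `p`-th power at the representative is one at every conjugate place. -/
theorem exists_pow_eq_of_rep {f : PreIdele} (hf : f ∈ idl K) {q : Nat.Primes} {g : GQ}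
    (h : ∃ y ∈ fieldAt q K (placeRep q K g), y ^ p = ((f q (placeRep q K g) : (Ω q)ˣ) : Ω q)) :
    ∃ y ∈ fieldAt q K g, y ^ p = ((f q g : (Ω q)ˣ) : Ω q) := by
  obtain ⟨τ, s, hs, e⟩ := placeRep_spec (q := q) (K := K) g
  obtain ⟨y, hy, hyp⟩ := h
  refine ⟨τ y, ?_, ?_⟩
  · rw [e]; exact apply_mem_fieldAt τ hs hy
  · conv_rhs => rw [e, apply_eq_of_rep hf q τ _ hs, ← hyp, map_pow]

/-- At a set of primes detecting the units of a good set, ideles at one place do not fall into
`Kˣ` times the `p`-th powers. -/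
theorem exists_detecting_goodSet (hp2 : p ≠ 2) (hζ : IsPrimitiveRoot ζ p) (hζK : ζ ∈ K)
    (T : Finset Nat.Primes) : ∃ S : Finset Nat.Primes, T ⊆ S ∧ GoodSet p S K ∧
      ∀ q ∈ T, ∀ r, placeRep q K r = r → ∀ u : (Ω q)ˣ, (u : Ω q) ∈ fieldAt q K r →
        singleAt K q r u ∈ prinSub K ⊔ powAt p S K → ∃ y ∈ fieldAt q K r, y ^ p = (u : Ω q) := by
  classical
  obtain ⟨S₀, hTS, hS₀⟩ := exists_goodSet hp2 hζ hζK T
  set V := ModP p (sUnits S₀ K)
  have : Finite V := Nat.finite_of_card_ne_zero hS₀.card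
  have : Finite (Module.Dual (ZMod p) V) := by
    have : Module.Finite (ZMod p) V := Module.Finite.of_finite
    exact Module.finite_of_finite (ZMod p)
  have hw : ∀ φ : Module.Dual (ZMod p) V, ∃ w : Nat.Primes, w ∉ S₀ ∧ ∃ g : GQ,
      ∀ x : sUnits S₀ K, (∃ y ∈ fieldAt w K g, y ^ p = emb w (g ((x : QBarˣ) : QBar))) →
        φ (modClass p x) = 0 := fun φ => by
    obtain ⟨w, hwS, g, -, hφ⟩ := exists_prime_realising hζ hζK (sUnits_le S₀ K)
      (sUnits_saturated S₀) φ (S₀.image fun q : Nat.Primes => (q : ℕ))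
    exact ⟨w, fun h => hwS (Finset.mem_image_of_mem _ h), g, fun x => (hφ x).1⟩
  choose w hwS g hg using hw
  have := Fintype.ofFinite (Module.Dual (ZMod p) V)
  set S := S₀ ∪ Finset.univ.image w
  have hS : GoodSet p S K := goodSet_of_gen hp2 hζ hζK (Finset.mem_union_left _ hS₀.mem) fun f hf =>
    (hS₀.gen f hf).imp fun c hc => ⟨hc.1, hc.2.1, fun q hq g' =>
      hc.2.2 q (fun h => hq (Finset.mem_union_left _ h)) g'⟩
  refine ⟨S, fun q hq => Finset.mem_union_left _ (hTS hq), hS, fun q hq r hr u hu hmem => ?_⟩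
  obtain ⟨_, ⟨c, hc, rfl⟩, e, he, heq⟩ := Subgroup.mem_sup.mp hmem
  have hval : ∀ q' h, emb q' (h (c : QBar)) =
      ((singleAt K q r u q' h : (Ω q')ˣ) : Ω q') * ((e q' h : (Ω q')ˣ) : Ω q')⁻¹ := fun q' h => by
    rw [← heq, Pi.mul_apply, Pi.mul_apply, Units.val_mul, prin_val,
      mul_inv_cancel_right₀ (Units.ne_zero _)]
  have hs1 : ∀ q' h, (q' = q → placeRep q' K h ≠ r) →
      ((singleAt K q r u q' h : (Ω q')ˣ) : Ω q') = 1 := fun q' h hne => by
    obtain ⟨τ, s, hs, e'⟩ := placeRep_spec (q := q') (K := K) h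
    rw [e', apply_eq_of_rep (singleAt_mem hu) q' τ _ hs, singleAt_other hu (placeRep_idem h) hne,
      Units.val_one, map_one]
  have hpow : ∀ q' ∈ S, ∀ h, (q' = q → placeRep q' K h ≠ r) →
      ∃ y ∈ fieldAt q' K h, y ^ p = emb q' (h (c : QBar)) := fun q' hq' h hne => by
    obtain ⟨y, hy, hyp⟩ := exists_pow_eq_of_rep he.1.1 (he.2 q' hq' _ (placeRep_idem h))
    exact ⟨y⁻¹, inv_mem hy, by rw [hval q' h, hs1 q' h hne, one_mul, inv_pow, hyp]⟩
  have hne₀ : ∀ q', q' ∉ S₀ → ∀ h : GQ, q' = q → placeRep q' K h ≠ r := fun q' hq' _ e' =>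
    absurd (e' ▸ hTS hq) hq'
  have hunit : ∀ q', q' ∉ S → ∀ h : GQ, ‖emb q' (h (c : QBar))‖ = 1 := fun q' hq' h => by
    rw [hval q' h, hs1 q' h (hne₀ q' (fun h' => hq' (Finset.mem_union_left _ h')) h), one_mul,
      norm_inv, he.1.2 q' hq' h, inv_one]
  -- move `c` into the units of the first set
  let z : (q' : Nat.Primes) → GQ → (Ω q')ˣ := fun q' h =>
    if hh : q' ∈ S ∧ q' ∉ S₀ then
      Units.mk0 (hpow q' hh.1 h (hne₀ q' hh.2 h)).choose (fun h0 => by
        have := (hpow q' hh.1 h (hne₀ q' hh.2 h)).choose_spec.2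
        rw [h0, zero_pow hp.out.ne_zero] at this
        exact c.ne_zero ((map_eq_zero _).1 ((map_eq_zero _).1 this.symm)))
    else 1
  have hz : ∀ q' h, ((z q' h : (Ω q')ˣ) : Ω q') ∈ fieldAt q' K h := fun q' h => by
    simp only [z]
    split_ifs with hh
    · exact (hpow q' hh.1 h (hne₀ q' hh.2 h)).choose_spec.1
    · rw [Units.val_one]; exact one_mem _
  set f := glue K (fun q' => placeRep q' K) z with hf
  have hfK : f ∈ idl K := glue_placeRep_mem_idl hz S fun q' hq' h => by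
    simp only [z, dif_neg fun hh : q' ∈ S ∧ q' ∉ S₀ => hq' hh.1, Units.val_one, norm_one]
  have hfnorm : ∀ q', q' ∉ S₀ → ∀ h,
      ‖((f q' h : (Ω q')ˣ) : Ω q')‖ ^ p = ‖emb q' (h (c : QBar))‖ := fun q' hq' h => by
    have e1 := norm_value_eq (prin_mem_idl_iff.mpr hc) q' h
    rw [prin_val, prin_val] at e1
    rw [norm_value_eq hfK q' h, e1, hf, glue_placeRep hz (placeRep_idem h)]
    by_cases hS' : q' ∈ S
    · simp only [z, dif_pos (⟨hS', hq'⟩ : q' ∈ S ∧ q' ∉ S₀), Units.val_mk0]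
      rw [← norm_pow, (hpow q' hS' _ (hne₀ q' hq' _)).choose_spec.2]
    · simp only [z, dif_neg fun hh : q' ∈ S ∧ q' ∉ S₀ => hS' hh.1, Units.val_one, norm_one,
        one_pow]
      exact (hunit q' hS' _).symm
  obtain ⟨d, hd, hfd⟩ := hS₀.gen f hfK
  set c₀ : QBarˣ := c * d ^ p
  have hc₀ : c₀ ∈ sUnits S₀ K := mem_sUnits.mpr ⟨mul_mem hc (pow_mem hd p), fun q' hq' h => by
    have e1 := hfd.2 q' hq' h
    rw [Pi.mul_apply, Pi.mul_apply, Units.val_mul, norm_mul, prin_val] at e1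
    rw [Units.val_mul, Units.val_pow_eq_pow_val, map_mul, map_mul, map_pow, map_pow, norm_mul,
      norm_pow, ← hfnorm q' hq' h, ← mul_pow, e1, one_pow]⟩
  have hzero : modClass p (⟨c₀, hc₀⟩ : sUnits S₀ K) = 0 := by
    by_contra hne
    obtain ⟨φ, hφ⟩ : ∃ φ : Module.Dual (ZMod p) V, φ (modClass p ⟨c₀, hc₀⟩) ≠ 0 := by
      by_contra hall
      push Not at hall
      exact hne ((Module.forall_dual_apply_eq_zero_iff (ZMod p) _).1 hall)
    refine hφ (hg φ ⟨c₀, hc₀⟩ ?_)
    obtain ⟨y, hy, hyp⟩ := hpow (w φ)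
      (Finset.mem_union_right _ (Finset.mem_image_of_mem _ (Finset.mem_univ φ))) (g φ)
      (hne₀ _ (hwS φ) _)
    exact ⟨y * emb _ (g φ (d : QBar)), mul_mem hy (emb_mem_fieldAt _ hd), by
      rw [mul_pow, hyp]
      show _ = emb _ (g φ ((c * d ^ p : QBarˣ) : QBar))
      rw [Units.val_mul, Units.val_pow_eq_pow_val, map_mul, map_mul, map_pow, map_pow]⟩
  obtain ⟨⟨x, hx⟩, hxp⟩ := (modClass_eq_zero_iff _).1 hzero
  replace hxp : x ^ p = c * d ^ p := congrArg Subtype.val hxp
  obtain ⟨ye, hye, hyep⟩ := he.2 q (Finset.mem_union_left _ (hTS hq)) r hr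
  refine ⟨emb q (r ((x * d⁻¹ : QBarˣ) : QBar)) * ye,
    mul_mem (emb_mem_fieldAt r (mul_mem (sUnits_le S₀ K hx) (inv_mem hd) : x * d⁻¹ ∈
    unitsOf K)) hye, ?_⟩
  have hxd : ((x * d⁻¹ : QBarˣ) : QBar) ^ p = (c : QBar) := by
    rw [← Units.val_pow_eq_pow_val, mul_pow, hxp, inv_pow, mul_inv_cancel_right]
  rw [mul_pow, ← map_pow, ← map_pow, hxd, hyep, hval q r, singleAt_self hu hr,
    inv_mul_cancel_right₀ (Units.ne_zero _)]

omit hp [FiniteDimensional ℚ K] in
/-- Single ideles multiply. -/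
theorem singleAt_mul {q : Nat.Primes} {r : GQ} (hr : placeRep q K r = r) {u u' : (Ω q)ˣ}
    (hu : (u : Ω q) ∈ fieldAt q K r) (hu' : (u' : Ω q) ∈ fieldAt q K r) :
    singleAt K q r (u * u') = singleAt K q r u * singleAt K q r u' := by
  have huu : ((u * u' : (Ω q)ˣ) : Ω q) ∈ fieldAt q K r := by
    rw [Units.val_mul]; exact mul_mem hu hu'
  refine idl_ext (singleAt_mem huu) (mul_mem (singleAt_mem hu) (singleAt_mem hu')) fun q' h hh => ?_
  rw [Pi.mul_apply, Pi.mul_apply]
  by_cases hne : q' = q → h ≠ r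
  · rw [singleAt_other huu hh hne, singleAt_other hu hh hne, singleAt_other hu' hh hne, one_mul]
  · push Not at hne
    obtain ⟨rfl, rfl⟩ := hne
    rw [singleAt_self huu hr, singleAt_self hu hr, singleAt_self hu' hr]

/-! ### The span of the ideles at a place -/

/-- The class of the idele with the value of an `S`-unit at the place `(q, r)`. -/
private def unitPlaceClass (S : Finset Nat.Primes) (q : Nat.Primes) (r : GQ) (x : sUnits S K) :
    ModQ p S K :=
  qClass p S ⟨singleAt K q r (Units.mk0 (emb q (r ((x : QBarˣ) : QBar)))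
    ((map_ne_zero _).2 ((map_ne_zero _).2 (Units.ne_zero _)))),
    singleAt_mem (u := Units.mk0 _ _) (emb_mem_fieldAt r (sUnits_le S K x.2))⟩

omit [FiniteDimensional ℚ K] in
/-- The classes of the values at the place depend linearly on the classes of the units. -/
private theorem exists_unitPlaceMap {S : Finset Nat.Primes} {q : Nat.Primes} {r : GQ}
    (hr : placeRep q K r = r) :
    ∃ Φ : ModP p (sUnits S K) →ₗ[ZMod p] ModQ p S K,
      ∀ x, Φ (modClass p x) = unitPlaceClass S q r x := by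
  have hloc_mul : ∀ x y : sUnits S K,
      unitPlaceClass (p := p) S q r (x * y) = unitPlaceClass S q r x + unitPlaceClass S q r y :=
    fun x y => by
    rw [unitPlaceClass, unitPlaceClass, unitPlaceClass, ← qClass_mul]
    refine congrArg (qClass p S) (Subtype.ext (Eq.trans (congrArg (singleAt K q r) ?_)
      (singleAt_mul hr (u := Units.mk0 _ _) (u' := Units.mk0 _ _)
        (emb_mem_fieldAt r (sUnits_le S K x.2)) (emb_mem_fieldAt r (sUnits_le S K y.2)))))
    exact Units.ext (by simp)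
  let locHom : Additive (sUnits S K) →+ ModQ p S K :=
    AddMonoidHom.mk' (fun x => unitPlaceClass S q r x.toMul) fun x y => hloc_mul x.toMul y.toMul
  refine ⟨AddMonoidHom.toZModLinearMap p (MonoidHom.toAdditiveLeft
    (QuotientGroup.lift _ (AddMonoidHom.toMultiplicativeRight locHom) ?_)), fun x => rfl⟩
  rintro _ ⟨y, rfl⟩
  show Multiplicative.ofAdd (locHom (Additive.ofMul (y ^ p))) = 1
  rw [ofMul_pow, map_nsmul, nsmul_modQ]
  rfl

/-- The span of the classes of the ideles at the place `(q, r)`. -/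
private def placeSpan (S : Finset Nat.Primes) (q : Nat.Primes) (r : GQ) :
    Submodule (ZMod p) (ModQ p S K) :=
  Submodule.span (ZMod p) {v | ∃ (u : (Ω q)ˣ) (hu : (u : Ω q) ∈ fieldAt q K r),
    v = qClass p S ⟨singleAt K q r u, singleAt_mem hu⟩}

omit [FiniteDimensional ℚ K] in
/-- The classes of units at the place lie in the span of the classes of ideles there. -/
private theorem range_le_placeSpan {S : Finset Nat.Primes} {q : Nat.Primes} {r : GQ}
    {Φ : ModP p (sUnits S K) →ₗ[ZMod p] ModQ p S K}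
    (hΦ : ∀ x, Φ (modClass p x) = unitPlaceClass S q r x) :
    LinearMap.range Φ ≤ placeSpan S q r := by
  rintro _ ⟨v, rfl⟩
  obtain ⟨x, rfl⟩ := modClass_surjective v
  rw [hΦ]
  exact Submodule.subset_span ⟨_, emb_mem_fieldAt r (sUnits_le S K x.2), rfl⟩

omit [FiniteDimensional ℚ K] in
/-- A functional whose norm group contains the ideles at the place annihilates their classes. -/
private theorem mem_dualAnnihilator_placeSpan {S : Finset Nat.Primes} {q : Nat.Primes} {r : GQ}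
    {N : Subgroup PreIdele} (hN : ∀ u : (Ω q)ˣ, (u : Ω q) ∈ fieldAt q K r → singleAt K q r u ∈ N)
    {l : Module.Dual (ZMod p) (ModQ p S K)}
    (hl : ∀ f : idl K, l (qClass p S f) = 0 ↔ (f : PreIdele) ∈ N) :
    l ∈ (placeSpan S q r).dualAnnihilator := by
  rw [Submodule.mem_dualAnnihilator]
  intro v hv
  refine (Submodule.span_le.2 ?_ : placeSpan S q r ≤ LinearMap.ker l) hv
  rintro _ ⟨u, hu, rfl⟩
  exact (hl _).2 (hN u hu)

/-- If the image of a map between spaces of the same finite dimension lies in `M`, the kernel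
has a subspace of the dimension of the annihilator of `M`. -/
private theorem exists_le_ker_finrank_eq {k V W : Type*} [Field k] [AddCommGroup V] [Module k V]
    [FiniteDimensional k V] [AddCommGroup W] [Module k W] [FiniteDimensional k W]
    (Φ : V →ₗ[k] W) {M : Submodule k W} (hM : LinearMap.range Φ ≤ M)
    (hdim : finrank k (Module.Dual k W) = finrank k V) :
    ∃ A ≤ LinearMap.ker Φ, finrank k A = finrank k M.dualAnnihilator := by
  have h1 := Subspace.finrank_add_finrank_dualAnnihilator_eq M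
  rw [← Subspace.dual_finrank_eq (K := k) (V := W), hdim] at h1
  have h2 := LinearMap.finrank_range_add_finrank_ker Φ
  have h3 := Submodule.finrank_mono hM
  obtain ⟨f, hf⟩ := exists_linearIndependent_of_le_finrank
    (show finrank k M.dualAnnihilator ≤ finrank k (LinearMap.ker Φ) by linarith)
  refine ⟨(Submodule.span k (Set.range f)).map (LinearMap.ker Φ).subtype,
    Submodule.map_subtype_le _ _, ?_⟩
  rw [Submodule.finrank_map_subtype_eq, finrank_span_eq_card hf, Fintype.card_fin]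

/-- If `x` is a `p`-th power at the place, all ideles at the place are norms from `K(x ^ (1/p))`
up to principal ideles. -/
private theorem singleAt_mem_normSub_of_pow (hp2 : p ≠ 2) (hζ : IsPrimitiveRoot ζ p)
    (hζK : ζ ∈ K) {S : Finset Nat.Primes} {x : sUnits S K} {g : GQ} (hg : g ∈ K.fixingSubgroup)
    (hk : kum hζ g ((x : QBarˣ) : QBar) = 1) {q : Nat.Primes} {r : GQ}
    (hpow : ∃ y ∈ fieldAt q K r, y ^ p = emb q (r ((x : QBarˣ) : QBar)))
    {u : (Ω q)ˣ} (hu : (u : Ω q) ∈ fieldAt q K r) :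
    singleAt K q r u ∈ normSub p K ((x : QBarˣ) : QBar) g := by
  classical
  refine mem_normSub_of_cond hp2 hζ hζK (sUnits_le S K x.2) (Units.ne_zero _) hg hk
    (singleAt_mem hu) fun q' h hh => ?_
  by_cases hne : q' = q → h ≠ r
  · exact Or.inr (Or.inl ⟨1, one_mem _, by rw [singleAt_other hu hh hne, Units.val_one, one_pow]⟩)
  · push Not at hne
    obtain ⟨rfl, rfl⟩ := hne
    exact Or.inl hpow

omit hp [FiniteDimensional ℚ K] in
/-- An `S`-unit that is no `p`-th power at some place has nonzero class. -/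
private theorem modClass_ne_zero_of_not_pow {S : Finset Nat.Primes} {x : sUnits S K}
    {q : Nat.Primes} {r : GQ}
    (hns : ∀ y ∈ fieldAt q K r, y ^ p ≠ emb q (r ((x : QBarˣ) : QBar))) :
    modClass p x ≠ 0 := fun h => by
  obtain ⟨⟨y, hy⟩, hyb⟩ := (modClass_eq_zero_iff _).1 h
  refine hns (emb q (r (y : QBar))) (emb_mem_fieldAt r (sUnits_le S K hy)) ?_
  rw [← map_pow, ← map_pow, ← Units.val_pow_eq_pow_val,
    show y ^ p = (x : QBarˣ) from congrArg Subtype.val hyb]

/-- The norm group of an `S`-unit with nonzero class is cut out by a nonzero functional on the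
classes of ideles. -/
private theorem exists_normFunctional (hp2 : p ≠ 2) (hζ : IsPrimitiveRoot ζ p) (hζK : ζ ∈ K)
    {S : Finset Nat.Primes} (hS : GoodSet p S K) {x : sUnits S K} (hx : modClass p x ≠ 0)
    {g : GQ} (hg : g ∈ K.fixingSubgroup) (hk : kum hζ g ((x : QBarˣ) : QBar) = 1) :
    ∃ l : Module.Dual (ZMod p) (ModQ p S K), l ≠ 0 ∧ ∀ f : idl K, l (qClass p S f) = 0 ↔
      (f : PreIdele) ∈ normSub p K ((x : QBarˣ) : QBar) g := by
  have hidx := relIndex_normSub hp2 hζ hζK (sUnits_le S K x.2) (Units.ne_zero _) hg hk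
    (rootP_notMem hx)
  obtain ⟨l, hl⟩ := exists_dual_iff hS (powAt_le_normSub hp2 hζ hζK (sUnits_le S K x.2)
    (Units.ne_zero _) hg hk hS.mem (mem_sUnits.mp x.2).2) hidx
  refine ⟨l, fun h0 => ?_, hl⟩
  have h1 := Subgroup.relIndex_eq_one.mpr
    (fun f hf => (hl ⟨f, hf⟩).mp (by rw [h0]; rfl) :
      idl K ≤ normSub p K ((x : QBarˣ) : QBar) g)
  rw [hidx] at h1
  exact hp.out.ne_one h1

/-! ### The theorem -/

/-- Some element of the completion at a non-split place is not a global norm class. -/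
theorem exists_singleAt_notMem_normSub (hp2 : p ≠ 2) (hζ : IsPrimitiveRoot ζ p) (hζK : ζ ∈ K)
    {b : QBar} (hbK : b ∈ K) (hb0 : b ≠ 0) {g₀ : GQ} (hg₀ : g₀ ∈ K.fixingSubgroup)
    (hkum : kum hζ g₀ b = 1) {q : Nat.Primes} {r : GQ} (hr : placeRep q K r = r)
    (hns : ∀ y ∈ fieldAt q K r, y ^ p ≠ emb q (r b)) :
    ∃ u : (Ω q)ˣ, (u : Ω q) ∈ fieldAt q K r ∧ singleAt K q r u ∉ normSub p K b g₀ := by
  classical
  by_contra hcon
  push Not at hcon
  set b₁ : QBarˣ := Units.mk0 b hb0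
  have hb₁ : b₁ ∈ unitsOf K := hbK
  obtain ⟨Tb, hTb⟩ := (mem_idl.1 (prin_mem_idl_iff.mpr hb₁)).2.1
  obtain ⟨S, hTS, hS, hdet⟩ := exists_detecting_goodSet hp2 hζ hζK (insert q Tb)
  have hb₁S : b₁ ∈ sUnits S K := mem_sUnits.mpr ⟨hb₁, fun q' hq' g => by
    have := hTb q' (fun h => hq' (hTS (Finset.mem_insert_of_mem h))) g
    rwa [prin_val] at this⟩
  set V := ModP p (sUnits S K)
  set Q := ModQ p S K
  have : Finite V := Nat.finite_of_card_ne_zero hS.card
  have : Module.Finite (ZMod p) V := Module.Finite.of_finite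
  have : Finite Q := Nat.finite_of_card_ne_zero
    ((card_modQ hp2 hζ hζK hS).trans_ne hS.card)
  have : Module.Finite (ZMod p) Q := Module.Finite.of_finite
  have : Finite (Module.Dual (ZMod p) Q) := Module.finite_of_finite (ZMod p)
  choose! X G F hX hG hkum' hF0 hF using
    fun v (hv : v ≠ (0 : V)) => exists_kumNormFunctional hp2 hζ hζK hS hv
  have hinj : ∀ v : V, v ≠ 0 → ∀ v' : V, v' ≠ 0 → F v ∈ (ZMod p ∙ F v') →
      v ∈ (ZMod p ∙ v') := by
    intro v hv v' hv' hmem
    have h := modClass_mem_span_of_functional hp2 hζ hζK hS (x := X v) (x' := X v')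
      (by rwa [hX v' hv']) (hG v hv) (hkum' v hv) (hG v' hv') (hkum' v' hv') (hF0 v hv) (hF v hv)
      (hF v' hv') hmem
    rwa [hX v hv, hX v' hv'] at h
  -- the units that are powers at the place
  obtain ⟨Φ, hΦ⟩ := exists_unitPlaceMap (p := p) (S := S) hr
  set A := LinearMap.ker Φ
  have hA : ∀ v ∈ A, ∀ x : sUnits S K, modClass p x = v →
      ∃ y ∈ fieldAt q K r, y ^ p = emb q (r ((x : QBarˣ) : QBar)) := fun v hv x hx => by
    rw [← hx, LinearMap.mem_ker, hΦ, unitPlaceClass, qClass_eq_zero_iff, qSub_eq hS,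
      Subgroup.mem_subgroupOf] at hv
    exact hdet q (Finset.mem_insert_self q Tb) r hr (Units.mk0 _ _)
      (emb_mem_fieldAt r (sUnits_le S K x.2)) hv
  obtain ⟨A', hA'A, hA'⟩ := exists_le_ker_finrank_eq Φ (range_le_placeSpan hΦ)
    (finrank_dual_modQ hp2 hζ hζK hS)
  set B := (placeSpan (p := p) (K := K) S q r).dualAnnihilator
  have hmem : ∀ v ∈ A', v ≠ 0 → F v ∈ B ∧ F v ≠ 0 := fun v hvA hv =>
    ⟨mem_dualAnnihilator_placeSpan (fun u hu => singleAt_mem_normSub_of_pow hp2 hζ hζK (hG v hv)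
      (hkum' v hv) (hA v (hA'A hvA) (X v) (hX v hv)) hu) (hF v hv), hF0 v hv⟩
  -- the functional of `b` also kills the place
  have hb0' : modClass p (⟨b₁, hb₁S⟩ : sUnits S K) ≠ 0 := modClass_ne_zero_of_not_pow hns
  obtain ⟨l, hl0, hl⟩ := exists_normFunctional hp2 hζ hζK hS hb0' hg₀ hkum
  obtain ⟨a, haA, ha0, hal⟩ := exists_mem_span_of_lines F A' B hA' hmem
    (fun a _ ha a' _ ha' => hinj a ha a' ha') l (mem_dualAnnihilator_placeSpan hcon hl) hl0
  -- so `b` and `a` have the same norm group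
  have hab : modClass p (⟨b₁, hb₁S⟩ : sUnits S K) ∈ (ZMod p ∙ a) := by
    have hal' : l ∈ (ZMod p ∙ F a) := by
      obtain ⟨c, hc⟩ := Submodule.mem_span_singleton.mp hal
      have hc0 : c ≠ 0 := fun h => hF0 a ha0 (by rw [← hc, h, zero_smul])
      exact Submodule.mem_span_singleton.mpr ⟨c⁻¹, by rw [← hc, inv_smul_smul₀ hc0]⟩
    have h := modClass_mem_span_of_functional hp2 hζ hζK hS (x := ⟨b₁, hb₁S⟩) (x' := X a)
      (by rwa [hX a ha0]) hg₀ hkum (hG a ha0) (hkum' a ha0) hl0 hl (hF a ha0) hal'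
    rwa [hX a ha0] at h
  obtain ⟨k, hk⟩ := Submodule.mem_span_singleton.mp hab
  obtain ⟨y, hy, hyb⟩ := hA _ (hk ▸ A.smul_mem k (hA'A haA)) ⟨b₁, hb₁S⟩ rfl
  exact hns y hy hyb

end Fermat.Agent.CFT.Idele
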