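import Mathlib.NumberTheory.Padics.RingHoms
import Mathlib.Algebra.GroupWithZero.Units.Basic

/-!
# The residue of the unit part of a `q`-adic number
-/

set_option autoImplicit false

noncomputable section

namespace Fermat.Agent.CFT.Idele

variable {q : ℕ} [Fact q.Prime]

/-- The valuation as a homomorphism. -/
def padicVal : ℚ_[q]ˣ →* Multiplicative ℤ where
  toFun x := Multiplicative.ofAdd (x : ℚ_[q]).valuation
  map_one' := by simp
  map_mul' x y := by rw [Units.val_mul, Padic.valuation_mul x.ne_zero y.ne_zero, ofAdd_add]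

theorem toAdd_padicVal (x : ℚ_[q]ˣ) :
    Multiplicative.toAdd (padicVal x) = (x : ℚ_[q]).valuation := rfl

theorem valuation_eq_zero_of_norm {x : ℚ_[q]} (h : ‖x‖ = 1) : x.valuation = 0 := by
  have hx : x ≠ 0 := fun h0 => by rw [h0, norm_zero] at h; exact zero_ne_one h
  rw [Padic.norm_eq_zpow_neg_valuation hx, ← zpow_zero (q : ℝ)] at h
  have := zpow_right_injective₀ (Nat.cast_pos.2 (Fact.out : q.Prime).pos)
    (by exact_mod_cast (Fact.out : q.Prime).one_lt.ne') h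
  omega

theorem norm_unitPart (x : ℚ_[q]ˣ) :
    ‖(x : ℚ_[q]) * (q : ℚ_[q]) ^ (-(x : ℚ_[q]).valuation)‖ = 1 := by
  rw [norm_mul, norm_zpow, Padic.norm_p, Padic.norm_eq_zpow_neg_valuation x.ne_zero, inv_zpow',
    neg_neg, ← zpow_add₀ (Nat.cast_ne_zero.2 (Fact.out : q.Prime).ne_zero), neg_add_cancel,
    zpow_zero]

/-- The residue of the unit part. -/
def resUnit : ℚ_[q]ˣ →* (ZMod q)ˣ :=
  MonoidHom.mk' (fun x => Units.map PadicInt.toZMod.toMonoidHom
    (PadicInt.mkUnits (norm_unitPart x)))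
    fun x y => by
      rw [← map_mul]
      refine congrArg (Units.map (PadicInt.toZMod : ℤ_[q] →+* ZMod q).toMonoidHom)
        (Units.ext (Subtype.ext ?_))
      have hq : (q : ℚ_[q]) ≠ 0 := Nat.cast_ne_zero.2 (Fact.out : q.Prime).ne_zero
      show ((x * y : ℚ_[q]ˣ) : ℚ_[q]) * (q : ℚ_[q]) ^ (-((x * y : ℚ_[q]ˣ) : ℚ_[q]).valuation) =
        (x : ℚ_[q]) * (q : ℚ_[q]) ^ (-(x : ℚ_[q]).valuation) *
          ((y : ℚ_[q]) * (q : ℚ_[q]) ^ (-(y : ℚ_[q]).valuation))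
      rw [Units.val_mul, Padic.valuation_mul x.ne_zero y.ne_zero, neg_add, zpow_add₀ hq]
      ring

/-- The residue from a factorisation into a power of `q` and a unit. -/
theorem resUnit_eq {x : ℚ_[q]ˣ} {j : ℤ} {u : ℤ_[q]ˣ}
    (h : (x : ℚ_[q]) = (q : ℚ_[q]) ^ j * ((u : ℤ_[q]) : ℚ_[q])) :
    resUnit x = Units.map PadicInt.toZMod.toMonoidHom u := by
  refine congrArg (Units.map (PadicInt.toZMod : ℤ_[q] →+* ZMod q).toMonoidHom)
    (Units.ext (Subtype.ext ?_))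
  have hq : (q : ℚ_[q]) ≠ 0 := Nat.cast_ne_zero.2 (Fact.out : q.Prime).ne_zero
  show (x : ℚ_[q]) * (q : ℚ_[q]) ^ (-(x : ℚ_[q]).valuation) = _
  have hv : (x : ℚ_[q]).valuation = j := by
    have hu : ((u : ℤ_[q]) : ℚ_[q]).valuation = 0 :=
      valuation_eq_zero_of_norm (PadicInt.isUnit_iff.1 u.isUnit)
    have hu0 : ((u : ℤ_[q]) : ℚ_[q]) ≠ 0 := fun h0 => x.ne_zero (by rw [h, h0, mul_zero])
    rw [h, Padic.valuation_mul (zpow_ne_zero _ hq) hu0, hu, add_zero, Padic.valuation_zpow,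
      Padic.valuation_p, mul_one]
  rw [hv, h, mul_comm ((q : ℚ_[q]) ^ j), mul_assoc, ← zpow_add₀ hq, add_neg_cancel, zpow_zero,
    mul_one]

/-- Two units differing by less than one have the same residue. -/
theorem toZMod_eq_of_norm_sub_lt {u v : ℤ_[q]} (h : ‖u - v‖ < 1) :
    PadicInt.toZMod u = PadicInt.toZMod v := by
  rw [← sub_eq_zero, ← map_sub, ← RingHom.mem_ker, PadicInt.ker_toZMod,
    IsLocalRing.mem_maximalIdeal, mem_nonunits_iff, PadicInt.isUnit_iff]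
  exact h.ne

/-- The residue of an integer prime to `q`. -/
theorem resUnit_intCast {x : ℚ_[q]ˣ} {m : ℤ} (hx : (x : ℚ_[q]) = m) (hm : ¬ (q : ℤ) ∣ m) :
    ((resUnit x : (ZMod q)ˣ) : ZMod q) = m := by
  have hu : IsUnit (m : ℤ_[q]) := by
    rw [PadicInt.isUnit_iff]
    exact le_antisymm (PadicInt.norm_le_one _)
      (not_lt.1 fun h => hm ((PadicInt.norm_int_lt_one_iff_dvd m).1 h))
  rw [resUnit_eq (j := 0) (u := hu.unit) (by simp [hx])]
  show PadicInt.toZMod ((hu.unit : ℤ_[q]ˣ) : ℤ_[q]) = _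
  rw [IsUnit.unit_spec, map_intCast]

end Fermat.Agent.CFT.Idele
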